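import Fermat.Agent.NeronSpecialisation.Place
import Fermat.Agent.FunctionFieldRank.Descent
import Fermat.Agent.FunctionFieldRank.MordellWeil
import Fermat.Agent.Frob.Reduction

/-!
# Specialisation of a Weierstrass equation over `F[T]`

At every `t` where the discriminant does not vanish, reduction at the place `T = t` is a
homomorphism from the points over `F(T)` to those of the fibre. It commutes with extensions of the
constants, and a point vanishing in `N` fibres has height at least `N log 2`.
-/

set_option autoImplicit false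
set_option linter.unusedSectionVars false
set_option linter.style.haveILetI false

noncomputable section

open WeierstrassCurve Polynomial
open FA.FunctionFieldRank
open scoped Classical

namespace FA.NeronSpecialisation

variable {F : Type*} [Field F]

/-- The curve over `F(T)` of an equation over `F[T]`. -/
abbrev genW (W : WeierstrassCurve F[X]) : WeierstrassCurve (RatFunc F) :=
  W.map (algebraMap F[X] (RatFunc F))

/-- The fibre at `t`. -/
abbrev fibreW (W : WeierstrassCurve F[X]) (t : F) : WeierstrassCurve F := W.map (evalRingHom t)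

theorem intCoeff_genW (W : WeierstrassCurve F[X]) (t : F) :
    FA.Local.IntCoeff (valueRing t).valuation (genW W).toAffine :=
  have h : ∀ p : F[X], (valueRing t).valuation (algebraMap F[X] (RatFunc F) p) ≤ 1 := fun p =>
    ((valueRing t).valuation_le_one_iff _).2 (algebraMap_mem_valueRing t p)
  ⟨h _, h _, h _, h _, h _⟩

theorem intModel_map_eq_fibre (W : WeierstrassCurve F[X]) (t : F) :
    (FA.Frob.intModel (valueRing t) (genW W).toAffine (intCoeff_genW W t)).map (valueAt t) =
      fibreW W t := by
  ext <;> exact valueAt_algebraMap t _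

theorem redCurve_map_fibre (W : WeierstrassCurve F[X]) (t : F) :
    (FA.Frob.redCurve (valueRing t) (genW W).toAffine (intCoeff_genW W t)).map (residueValue t) =
      fibreW W t := by
  rw [← intModel_map_eq_fibre, FA.Frob.redCurve, WeierstrassCurve.map_map]
  rfl

theorem valuation_Δ_genW {W : WeierstrassCurve F[X]} {t : F} (ht : (fibreW W t).Δ ≠ 0) :
    (valueRing t).valuation (genW W).Δ = 1 := by
  set M := FA.Frob.intModel (valueRing t) (genW W).toAffine (intCoeff_genW W t)
  have hu : IsUnit M.Δ := by
    refine (isUnit_map_iff (valueAt t) _).1 ?_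
    rw [← WeierstrassCurve.map_Δ, intModel_map_eq_fibre]
    exact isUnit_iff_ne_zero.2 ht
  have h := (FA.Frob.valuation_eq_one_iff (valueRing t) M.Δ).2 hu
  rwa [show (M.Δ : RatFunc F) = (genW W).Δ from
    ((M.map_Δ (valueRing t).subtype).symm.trans
      (congrArg WeierstrassCurve.Δ (FA.Frob.intModel_map _ _ _)))] at h

theorem eval_Δ_ne {W : WeierstrassCurve F[X]} {t : F} (ht : (fibreW W t).Δ ≠ 0) :
    W.Δ.eval t ≠ 0 := by
  rwa [fibreW, WeierstrassCurve.map_Δ] at ht

theorem fibreW_isElliptic {W : WeierstrassCurve F[X]} {t : F} (ht : (fibreW W t).Δ ≠ 0) :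
    (fibreW W t).IsElliptic :=
  (WeierstrassCurve.isElliptic_iff _).2 (isUnit_iff_ne_zero.2 ht)

theorem genW_isElliptic {W : WeierstrassCurve F[X]} (hW : W.Δ ≠ 0) : (genW W).IsElliptic :=
  (WeierstrassCurve.isElliptic_iff _).2 (isUnit_iff_ne_zero.2 (by
    rw [WeierstrassCurve.map_Δ]
    exact RatFunc.algebraMap_ne_zero hW))

/-- **The specialisation homomorphism of an equation over `F[T]`.** -/
def specW (W : WeierstrassCurve F[X]) {t : F} (ht : (fibreW W t).Δ ≠ 0) :
    (genW W).toAffine.Point →+ (fibreW W t).toAffine.Point :=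
  haveI := FA.Frob.redCurve_isElliptic (intCoeff_genW W t) (valuation_Δ_genW ht)
  (pointMap (residueValue t) (redCurve_map_fibre W t)).comp
    (FA.Frob.redHom (intCoeff_genW W t) (valuation_Δ_genW ht))

theorem specW_some_of_mem {W : WeierstrassCurve F[X]} {t : F} (ht : (fibreW W t).Δ ≠ 0)
    {x y : RatFunc F} (h : (genW W).toAffine.Nonsingular x y) (hx : x ∈ valueRing t) :
    ∃ (hy : y ∈ valueRing t) (h' : (fibreW W t).toAffine.Nonsingular
      (valueAt t ⟨x, hx⟩) (valueAt t ⟨y, hy⟩)),
      specW W ht (.some x y h) = .some _ _ h' := by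
  haveI := FA.Frob.redCurve_isElliptic (intCoeff_genW W t) (valuation_Δ_genW ht)
  have hy := FA.Frob.y_mem (intCoeff_genW W t) h.1 hx
  obtain ⟨h₁, e₁⟩ := FA.Frob.redFun_of_mem (intCoeff_genW W t) h hx
  have hs : specW W ht (.some x y h) =
      pointMap (residueValue t) (redCurve_map_fibre W t) (.some _ _ h₁) := by
    rw [specW, AddMonoidHom.comp_apply, FA.Frob.redHom_apply, e₁]
  rw [pointMap_some] at hs
  simp only [FA.Frob.resOf, dif_pos hx, dif_pos hy] at hs
  exact ⟨hy, _, hs⟩

theorem specW_some_of_notMem {W : WeierstrassCurve F[X]} {t : F} (ht : (fibreW W t).Δ ≠ 0)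
    {x y : RatFunc F} (h : (genW W).toAffine.Nonsingular x y)
    (hx : x ∉ valueRing t) : specW W ht (.some x y h) = 0 := by
  haveI := FA.Frob.redCurve_isElliptic (intCoeff_genW W t) (valuation_Δ_genW ht)
  rw [specW, AddMonoidHom.comp_apply, FA.Frob.redHom_apply,
    show FA.Frob.redFun (intCoeff_genW W t) (.some x y h) = 0 from dif_neg hx, map_zero]

/-- Specialisation is injective on the points killed by two. -/
theorem specW_two_torsion (h2 : (2 : F) ≠ 0) {W : WeierstrassCurve F[X]} {t : F}
    (ht : (fibreW W t).Δ ≠ 0) {P : (genW W).toAffine.Point} (hP : 2 • P = 0)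
    (h : specW W ht P = 0) : P = 0 := by
  haveI := FA.Frob.redCurve_isElliptic (intCoeff_genW W t) (valuation_Δ_genW ht)
  haveI : (genW W).toAffine.IsElliptic :=
    genW_isElliptic fun e => eval_Δ_ne ht (by rw [e, eval_zero])
  refine FA.Frob.redHom_injOn (intCoeff_genW W t) (valuation_Δ_genW ht) Nat.prime_two ?_ hP
    (pointMap_injective (residueValue t) (redCurve_map_fibre W t) (h.trans (map_zero _).symm))
  have hu : IsUnit (2 : valueRing t) :=
    (isUnit_map_iff (valueAt t) _).1 (by rw [map_ofNat]; exact isUnit_iff_ne_zero.2 h2)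
  rw [Nat.cast_ofNat, show (2 : RatFunc F) = ((2 : valueRing t) : RatFunc F) from rfl]
  exact (FA.Frob.valuation_eq_one_iff (valueRing t) 2).2 hu

section Height

attribute [local instance] heightData

/-- A point in the kernel at `N` fibres has height at least `N log (degBase F)`. -/
theorem le_naiveHgt_of_specW_eq_zero (W : WeierstrassCurve F[X]) (S : Finset F)
    (hS : ∀ t ∈ S, (fibreW W t).Δ ≠ 0) {P : (genW W).toAffine.Point} (hP : P ≠ 0)
    (h : ∀ t (ht : t ∈ S), specW W (hS t ht) P = 0) :
    (S.card : ℝ) * Real.log (degBase F) ≤ naiveHgt P := by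
  rcases P with _ | ⟨x, y, hxy⟩
  · exact absurd rfl hP
  have hroot : ∀ t ∈ S, x.denom.IsRoot t := fun t ht => by
    by_contra hne
    obtain ⟨hy, h', hs⟩ := specW_some_of_mem (hS t ht) hxy (show x ∈ valueRing t from hne)
    rw [h t ht] at hs
    exact Affine.Point.some_ne_zero _ hs.symm
  have hcard : S.card ≤ x.denom.natDegree := Polynomial.card_le_degree_of_subset_roots fun t ht =>
    (Polynomial.mem_roots x.denom_ne_zero).2 (hroot t ht)
  rw [naiveHgt, Affine.Point.xRep_some, ← Height.logHeight₁_eq_logHeight, Height.logHeight₁,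
    ← Real.log_pow]
  exact Real.log_le_log (pow_pos (zero_lt_one.trans one_lt_degBase) _)
    ((pow_le_pow_right₀ one_lt_degBase.le (hcard.trans (le_max_right _ _))).trans
      (pow_degree_le_mulHeight₁ x))

end Height

variable {L : Type*} [Field L] (g : F →+* L)

/-- The extension of the constants on rational functions. -/
def constMap : RatFunc F →+* RatFunc L :=
  RatFunc.mapRingHom (Polynomial.mapRingHom g) (mapPoly_comap g)

theorem constMap_algebraMap (p : F[X]) :
    constMap g (algebraMap F[X] (RatFunc F) p) = algebraMap L[X] (RatFunc L) (p.map g) := by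
  simp [constMap, RatFunc.coe_mapRingHom_eq_coe_map, RatFunc.map_apply]

theorem constMap_eq_div (x : RatFunc F) : constMap g x =
    algebraMap L[X] (RatFunc L) (x.num.map g) / algebraMap L[X] (RatFunc L) (x.denom.map g) := by
  conv_lhs => rw [← RatFunc.num_div_denom x]
  rw [map_div₀, constMap_algebraMap, constMap_algebraMap]

theorem denom_constMap (x : RatFunc F) : (constMap g x).denom = x.denom.map g := by
  have hne : x.denom.map g ≠ 0 := (x.monic_denom.map g).ne_zero
  have hco : IsCoprime (x.num.map g) (x.denom.map g) :=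
    (RatFunc.isCoprime_num_denom x).map (mapRingHom g)
  have hd : (constMap g x).denom ∣ x.denom.map g :=
    (RatFunc.denom_dvd hne).2 ⟨_, constMap_eq_div g x⟩
  have e := constMap_eq_div g x
  conv_lhs at e => rw [← RatFunc.num_div_denom (constMap g x)]
  rw [div_eq_div_iff (RatFunc.algebraMap_ne_zero (constMap g x).denom_ne_zero)
    (RatFunc.algebraMap_ne_zero hne), ← map_mul, ← map_mul] at e
  have e' := RatFunc.algebraMap_injective L e
  have hd' : x.denom.map g ∣ (constMap g x).denom :=
    hco.symm.dvd_of_dvd_mul_left ⟨(constMap g x).num, by linear_combination -e'⟩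
  exact eq_of_monic_of_associated (RatFunc.monic_denom _) (x.monic_denom.map g)
    (associated_of_dvd_dvd hd hd')

theorem num_constMap (x : RatFunc F) : (constMap g x).num = x.num.map g := by
  have e := constMap_eq_div g x
  conv_lhs at e => rw [← RatFunc.num_div_denom (constMap g x), denom_constMap]
  rw [div_left_inj' (RatFunc.algebraMap_ne_zero (x.monic_denom.map g).ne_zero)] at e
  exact RatFunc.algebraMap_injective L e

theorem genW_map (W : WeierstrassCurve F[X]) :
    (genW W).map (constMap g) = genW (W.map (mapRingHom g)) := by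
  ext <;> exact constMap_algebraMap g _

theorem fibreW_map (W : WeierstrassCurve F[X]) (t : F) :
    (fibreW W t).map g = fibreW (W.map (mapRingHom g)) (g t) := by
  ext <;> exact (eval_map_apply g t).symm

theorem fibreW_map_ne {W : WeierstrassCurve F[X]} {t : F} (ht : (fibreW W t).Δ ≠ 0) :
    (fibreW (W.map (mapRingHom g)) (g t)).Δ ≠ 0 := by
  rw [← fibreW_map, WeierstrassCurve.map_Δ]
  exact (map_ne_zero g).2 ht

/-- **Specialisation commutes with extensions of the constants.** -/
theorem pointMap_specW {W : WeierstrassCurve F[X]} {W' : WeierstrassCurve L[X]}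
    (hW : W.map (mapRingHom g) = W') {t : F} {t' : L} (htt : g t = t')
    (ht : (fibreW W t).Δ ≠ 0) (ht' : (fibreW W' t').Δ ≠ 0)
    (hG : (genW W).map (constMap g) = genW W') (hF : (fibreW W t).map g = fibreW W' t')
    (P : (genW W).toAffine.Point) :
    specW W' ht' (pointMap (constMap g) hG P) = pointMap g hF (specW W ht P) := by
  subst hW htt
  rcases P with _ | ⟨x, y, h⟩
  · rw [← Affine.Point.zero_def, map_zero, map_zero, map_zero, map_zero]
  have hmem : constMap g x ∈ valueRing (g t) ↔ x ∈ valueRing t := by
    rw [mem_valueRing, mem_valueRing, denom_constMap, eval_map_apply, ne_eq, map_eq_zero]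
  rw [pointMap_some]
  by_cases hx : x ∈ valueRing t
  · obtain ⟨hy, h₁, e₁⟩ := specW_some_of_mem ht h hx
    obtain ⟨hy', h₂, e₂⟩ := specW_some_of_mem ht'
      (show (genW (W.map (mapRingHom g))).toAffine.Nonsingular (constMap g x) (constMap g y) by
        rw [← hG]; exact ((genW W).toAffine.map_nonsingular (constMap g).injective x y).2 h)
      (hmem.2 hx)
    rw [e₁, e₂, pointMap_some, Affine.Point.some.injEq]
    simp only [valueAt_apply, num_constMap, denom_constMap, eval_map_apply, map_div₀, and_self]
  · rw [specW_some_of_notMem ht h hx, map_zero, specW_some_of_notMem ht' _ fun hm => hx (hmem.1 hm)]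

end FA.NeronSpecialisation
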