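import Mathlib.GroupTheory.Descent
import Mathlib.GroupTheory.FiniteAbelian.Basic
import Mathlib.RingTheory.Finiteness.Basic
import Mathlib.RingTheory.Noetherian.Basic
import Mathlib.Tactic.Linarith
import Mathlib.Tactic.NormNum

/-!
# Descent without finiteness below the bounds

If a group with finitely many classes modulo two maps to a finitely generated group, and on the
kernel the height of a non-zero element exceeds the constant of the parallelogram law, then in
the kernel finitely many elements lie below each bound, and the group is finitely generated.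
-/

set_option autoImplicit false
set_option linter.style.haveILetI false

noncomputable section

namespace FA.NeronSpecialisation

variable {G A : Type*} [AddCommGroup G] [AddCommGroup A]

/-- In a finitely generated group finitely many elements are killed by two. -/
theorem finite_two_torsion_of_fg [AddGroup.FG A] : {a : A | 2 • a = 0}.Finite := by
  haveI : Module.Finite ℤ A := Module.Finite.iff_addGroup_fg.mpr inferInstance
  set T : AddSubgroup A := (nsmulAddMonoidHom (α := A) 2).ker
  haveI : Module.Finite ℤ (AddSubgroup.toIntSubmodule T) :=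
    Module.Finite.iff_fg.2 (IsNoetherian.noetherian _)
  haveI : AddGroup.FG T :=
    Module.Finite.iff_addGroup_fg.mp (inferInstanceAs (Module.Finite ℤ (AddSubgroup.toIntSubmodule T)))
  haveI : Finite T := AddCommGroup.finite_of_fg_isAddTorsion T fun x => by
    refine isOfFinAddOrder_iff_nsmul_eq_zero.2 ⟨2, two_pos, Subtype.ext ?_⟩
    exact AddMonoidHom.mem_ker.1 x.2
  exact Set.Finite.subset (T : Set A).toFinite fun a ha => AddMonoidHom.mem_ker.2 ha

/-- Finitely many classes modulo `2` give finitely many modulo every power of `2`. -/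
theorem finiteIndex_two_pow [h : (nsmulAddMonoidHom (α := G) 2).range.FiniteIndex] (k : ℕ) :
    (nsmulAddMonoidHom (α := G) (2 ^ k)).range.FiniteIndex := by
  induction k with
  | zero =>
    have e : (nsmulAddMonoidHom (α := G) (2 ^ 0)).range = ⊤ :=
      eq_top_iff.2 fun x _ => ⟨x, by simp⟩
    rw [e]; infer_instance
  | succ k ih =>
    haveI := ih
    let f : (G ⧸ (nsmulAddMonoidHom (α := G) 2).range) ×
        (G ⧸ (nsmulAddMonoidHom (α := G) (2 ^ k)).range) →
        G ⧸ (nsmulAddMonoidHom (α := G) (2 ^ (k + 1))).range :=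
      fun z => QuotientAddGroup.mk (z.1.out + 2 • z.2.out)
    haveI : Finite (G ⧸ (nsmulAddMonoidHom (α := G) (2 ^ (k + 1))).range) :=
      Finite.of_surjective f fun q => by
        obtain ⟨x, rfl⟩ := QuotientAddGroup.mk_surjective q
        obtain ⟨u, hu⟩ := (QuotientAddGroup.eq (s := (nsmulAddMonoidHom (α := G) 2).range)).1
          (Quotient.out_eq (QuotientAddGroup.mk x : G ⧸ (nsmulAddMonoidHom (α := G) 2).range))
        obtain ⟨w, hw⟩ := (QuotientAddGroup.eq (s := (nsmulAddMonoidHom (α := G) (2 ^ k)).range)).1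
          (Quotient.out_eq (QuotientAddGroup.mk u : G ⧸ (nsmulAddMonoidHom (α := G) (2 ^ k)).range))
        refine ⟨(QuotientAddGroup.mk x, QuotientAddGroup.mk u), QuotientAddGroup.eq.2 ⟨w, ?_⟩⟩
        simp only [nsmulAddMonoidHom_apply] at hu hw ⊢
        rw [pow_succ', mul_nsmul', hw, nsmul_add, hu, smul_neg]
        abel
    exact AddSubgroup.finiteIndex_of_finite_quotient

/-- The kernel of a map to a finitely generated group keeps finitely many classes modulo two. -/
theorem finiteIndex_ker [AddGroup.FG A] (φ : G →+ A)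
    [(nsmulAddMonoidHom (α := G) 2).range.FiniteIndex] :
    (nsmulAddMonoidHom (α := φ.ker) 2).range.FiniteIndex := by
  classical
  haveI : Finite {a : A | 2 • a = 0} := finite_two_torsion_of_fg
  have hX : ∀ q : G ⧸ (nsmulAddMonoidHom (α := G) 2).range, ∃ r : φ.ker,
      (∃ x : φ.ker, QuotientAddGroup.mk (x : G) = q) → QuotientAddGroup.mk (r : G) = q := fun q => by
    by_cases h : ∃ x : φ.ker, QuotientAddGroup.mk (x : G) = q
    · exact ⟨h.choose, fun _ => h.choose_spec⟩
    · exact ⟨0, fun h' => absurd h' h⟩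
  have hA : ∀ a : {a : A | 2 • a = 0}, ∃ r : φ.ker,
      (∃ g, φ g = a) → ∃ g, φ g = a ∧ 2 • g = (r : G) := fun a => by
    by_cases h : ∃ g, φ g = a
    · obtain ⟨g, hg⟩ := h
      exact ⟨⟨2 • g, AddMonoidHom.mem_ker.2 (by rw [map_nsmul, hg]; exact a.2)⟩,
        fun _ => ⟨g, hg, rfl⟩⟩
    · exact ⟨0, fun h' => absurd h' h⟩
  choose rX hrX using hX
  choose rA hrA using hA
  haveI : Finite (φ.ker ⧸ (nsmulAddMonoidHom (α := φ.ker) 2).range) := by
    refine Finite.of_surjective (fun z : (G ⧸ (nsmulAddMonoidHom (α := G) 2).range) ×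
      {a : A | 2 • a = 0} => QuotientAddGroup.mk (rX z.1 + rA z.2)) fun q => ?_
    obtain ⟨x, rfl⟩ := QuotientAddGroup.mk_surjective q
    set r := rX (QuotientAddGroup.mk (x : G))
    obtain ⟨g, hg⟩ := QuotientAddGroup.eq.1 (hrX _ ⟨x, rfl⟩)
    rw [nsmulAddMonoidHom_apply] at hg
    have ha : 2 • φ g = 0 := by
      rw [← map_nsmul, hg, map_add, map_neg, AddMonoidHom.mem_ker.1 r.2,
        AddMonoidHom.mem_ker.1 x.2, neg_zero, add_zero]
    obtain ⟨g₀, h₀, hr₀⟩ := hrA ⟨φ g, ha⟩ ⟨g, rfl⟩
    refine ⟨(QuotientAddGroup.mk (x : G), ⟨φ g, ha⟩), QuotientAddGroup.eq.2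
      ⟨⟨g - g₀, AddMonoidHom.mem_ker.2 (by rw [map_sub, h₀]; exact sub_self _)⟩, Subtype.ext ?_⟩⟩
    simp only [nsmulAddMonoidHom_apply, AddSubgroup.coe_nsmul, AddSubgroup.coe_add,
      NegMemClass.coe_neg]
    rw [nsmul_sub, hg, hr₀]
    abel
  exact AddSubgroup.finiteIndex_of_finite_quotient

/-- **Descent through a finitely generated image.** -/
theorem fg_of_map [AddGroup.FG A] (φ : G →+ A)
    [(nsmulAddMonoidHom (α := G) 2).range.FiniteIndex] {h : G → ℝ} {C : ℝ} (h0 : ∀ x, 0 ≤ h x)
    (hC : ∀ x y, |h (x + y) + h (x - y) - 2 * (h x + h y)| ≤ C)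
    (hker : ∀ x, φ x = 0 → x ≠ 0 → h 0 + C + 1 ≤ h x) : AddGroup.FG G := by
  haveI := finiteIndex_ker φ
  set hH : φ.ker → ℝ := fun x => h x
  have hC0 : 0 ≤ C := (abs_nonneg _).trans (hC 0 0)
  have hdouble : ∀ x : G, φ x = 0 → x ≠ 0 → 3 * h x + 1 ≤ h (2 • x) := fun x hx hx0 => by
    have h1 := (abs_le.1 (hC x x)).1
    rw [sub_self, ← two_nsmul] at h1
    linarith [hker x hx hx0]
  have hgrow : ∀ (k : ℕ) (x : G), φ x = 0 → x ≠ 0 →
      2 ^ k • x ≠ 0 ∧ (3 : ℝ) ^ k ≤ h (2 ^ k • x) := fun k => by
    induction k with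
    | zero =>
      intro x hx hx0
      exact ⟨by simpa using hx0, by simpa using (show (1 : ℝ) ≤ h x by linarith [hker x hx hx0, h0 0])⟩
    | succ k ih =>
      intro x hx hx0
      obtain ⟨hne, hle⟩ := ih x hx hx0
      have hz : φ (2 ^ k • x) = 0 := by rw [map_nsmul, hx, nsmul_zero]
      have h2 := hdouble _ hz hne
      rw [pow_succ', mul_nsmul']
      refine ⟨fun e => ?_, ?_⟩
      · rw [e] at h2
        linarith [hker _ hz hne, h0 (0 : G)]
      · rw [pow_succ']
        linarith
  haveI : Northcott hH := ⟨fun B => by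
    obtain ⟨k, hk⟩ := pow_unbounded_of_one_lt (4 * B + C) (by norm_num : (1 : ℝ) < 3)
    haveI := finiteIndex_two_pow (G := φ.ker) k
    refine Set.Finite.of_injOn (f := fun x : φ.ker =>
      (QuotientAddGroup.mk x : φ.ker ⧸ (nsmulAddMonoidHom (α := φ.ker) (2 ^ k)).range))
      (Set.mapsTo_univ _ _) (fun x hx y hy e => ?_) Set.finite_univ
    obtain ⟨z, hz⟩ := QuotientAddGroup.eq.1 e
    by_contra hne
    have hz0 : (z : G) ≠ 0 := fun e0 => hne (by
      have hz' : z = 0 := Subtype.ext e0
      rw [hz', map_zero] at hz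
      exact neg_add_eq_zero.1 hz.symm)
    have h1 := (hgrow k z (AddMonoidHom.mem_ker.1 z.2) hz0).2
    have e' : 2 ^ k • (z : G) = (y : G) - x := by
      have := congrArg (fun w : φ.ker => (w : G)) hz
      simp only [nsmulAddMonoidHom_apply, AddSubgroup.coe_nsmul, AddSubgroup.coe_add,
        NegMemClass.coe_neg] at this
      rw [this]; abel
    have h2 := (abs_le.1 (hC (y : G) x)).2
    rw [e'] at h1
    have hx' : h x ≤ B := hx
    have hy' : h y ≤ B := hy
    linarith [h0 ((y : G) + x)]⟩
  haveI : AddGroup.FG φ.ker :=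
    AddCommGroup.fg_of_descent' (h := hH) (C := C) inferInstance (fun x => h0 _) fun x y => hC x y
  haveI : Module.Finite ℤ A := Module.Finite.iff_addGroup_fg.mpr inferInstance
  set f := φ.toIntLinearMap
  haveI : Module.Finite ℤ G := by
    refine ⟨Submodule.fg_of_fg_map_of_fg_inf_ker f (IsNoetherian.noetherian _) ?_⟩
    rw [top_inf_eq]
    haveI : Module.Finite ℤ φ.ker := Module.Finite.iff_addGroup_fg.mpr inferInstance
    exact Module.Finite.iff_fg.1 (Module.Finite.equiv
      (AddEquiv.refl φ.ker).toIntLinearEquiv : Module.Finite ℤ (LinearMap.ker f))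
  exact Module.Finite.iff_addGroup_fg.mp inferInstance

end FA.NeronSpecialisation
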