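import Fermat.Agent.NeronSpecialisation.Weak
import Fermat.Agent.NeronSpecialisation.Descent
import Fermat.Agent.FunctionFieldRank.MordellWeil
import Fermat.Agent.MordellWeil.Summary
import Fermat.Agent.MordellWeil.Structure
import Fermat.Agent.Hilbertian.Irreducibility

/-!
# Mordell–Weil over `ℚ(T)` and Néron's specialisation theorem

A point vanishing in `N` fibres has height at least `N log 2`, so finitely many fibres control
the descent. Points outside the doubles stay outside them in almost every fibre by Hilbert's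
irreducibility theorem, and so specialisation is injective there.
-/

set_option autoImplicit false
set_option linter.unusedSectionVars false
set_option linter.style.haveILetI false

noncomputable section

open WeierstrassCurve Polynomial
open FA.FunctionFieldMW FA.FunctionFieldRank
open Fermat.Agent.Hilbertian (DensityZero densityZero_of_finite densityZero_biUnion
  isSquare_of_square_values)
open scoped Classical

namespace FA.NeronSpecialisation

attribute [local instance] heightData

/-- The decision procedure with which the specialisations are built. -/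
@[instance_reducible] def ratDecEq : DecidableEq ℚ := fun a b => Classical.propDecidable (a = b)

attribute [local instance 2000] ratDecEq

variable {F : Type*} [Field F] {e : Fin 3 → F[X]}

/-- A point in the kernel at `N` fibres has height at least `N log (degBase F)`. -/
theorem le_naiveHgt_of_spec_eq_zero (h2 : (2 : F) ≠ 0) (S : Finset F)
    (hS : ∀ t ∈ S, Function.Injective (specRoots e t))
    {P : (rootCurve (genRoots e)).toAffine.Point} (hP : P ≠ 0)
    (h : ∀ t (ht : t ∈ S), spec h2 (hS t ht) P = 0) :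
    (S.card : ℝ) * Real.log (degBase F) ≤ naiveHgt P := by
  rcases P with _ | ⟨x, y, hxy⟩
  · exact absurd rfl hP
  have hroot : ∀ t ∈ S, x.denom.IsRoot t := fun t ht => by
    by_contra hne
    obtain ⟨hy, h', hs⟩ := spec_some_of_mem h2 (hS t ht) hxy (show x ∈ valueRing t from hne)
    rw [h t ht] at hs
    exact Affine.Point.some_ne_zero _ hs.symm
  have hcard : S.card ≤ x.denom.natDegree := Polynomial.card_le_degree_of_subset_roots fun t ht =>
    (Polynomial.mem_roots x.denom_ne_zero).2 (hroot t ht)
  rw [naiveHgt, Affine.Point.xRep_some, ← Height.logHeight₁_eq_logHeight, Height.logHeight₁,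
    ← Real.log_pow]
  exact Real.log_le_log (pow_pos (zero_lt_one.trans one_lt_degBase) _)
    ((pow_le_pow_right₀ one_lt_degBase.le (hcard.trans (le_max_right _ _))).trans
      (pow_degree_le_mulHeight₁ x))

variable {e : Fin 3 → ℚ[X]}

/-- At almost every integer the roots stay distinct. -/
theorem finite_degenerate (he : Function.Injective e) :
    {t : ℤ | ¬Function.Injective (specRoots e (t : ℚ))}.Finite := by
  have h : ∀ z : Fin 3 × Fin 3,
      {t : ℤ | z.1 ≠ z.2 ∧ (e z.1 - e z.2).IsRoot (t : ℚ)}.Finite := fun z => by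
    by_cases hz : z.1 = z.2
    · exact Set.Finite.subset Set.finite_empty fun t ht => absurd hz ht.1
    · exact ((finite_setOfPred_isRoot (sub_ne_zero.2 (he.ne hz))).preimage
        Int.cast_injective.injOn).subset fun t ht => ht.2
  refine (Set.finite_iUnion h).subset fun t ht => ?_
  simp only [Set.mem_ofPred_eq, Function.Injective, not_forall] at ht
  obtain ⟨i, j, hij, hne⟩ := ht
  exact Set.mem_iUnion.2 ⟨(i, j), hne, by simpa [IsRoot, specRoots, sub_eq_zero] using hij⟩

theorem fg_specCurve {t : ℚ} (ht : Function.Injective (specRoots e t)) :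
    AddGroup.FG (rootCurve (specRoots e t)).toAffine.Point := by
  haveI := (rootData ht).isElliptic (two_ne_zero (α := ℚ))
  convert FA.MordellWeil.mordell (rootCurve (specRoots e t))

/-- **Mordell–Weil over `ℚ(T)`.** -/
theorem fg_point_ratFunc_rat (he : Function.Injective e) :
    AddGroup.FG (rootCurve (genRoots e)).toAffine.Point := by
  have h2 : (2 : ℚ) ≠ 0 := two_ne_zero
  haveI := (rootData (genRoots_injective he)).isElliptic (two_ne_zero_ratFunc h2)
  obtain ⟨C, hC⟩ := naiveHgt_parallelogram (E := rootCurve (genRoots e))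
  obtain ⟨n, hn⟩ := exists_nat_gt
    ((naiveHgt (0 : (rootCurve (genRoots e)).toAffine.Point) + C + 1) / Real.log (degBase ℚ))
  obtain ⟨T, hT, hTc⟩ := ((finite_degenerate he).infinite_compl).exists_subset_card_eq (n + 1)
  set S : Finset ℚ := T.image (Int.cast : ℤ → ℚ)
  have hS : ∀ t ∈ S, Function.Injective (specRoots e t) := fun t ht => by
    obtain ⟨z, hz, rfl⟩ := Finset.mem_image.1 ht
    exact not_not.1 (hT hz)
  obtain ⟨z₀, hz₀⟩ : T.Nonempty := Finset.card_pos.1 (by omega)
  haveI := fg_specCurve (hS _ (Finset.mem_image_of_mem _ hz₀))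
  haveI := finiteIndex_two h2 (hS _ (Finset.mem_image_of_mem _ hz₀))
  haveI : ∀ t : S, AddGroup.FG (rootCurve (specRoots e t.1)).toAffine.Point := fun t =>
    fg_specCurve (hS t.1 t.2)
  haveI : ∀ t : S, Module.Finite ℤ (rootCurve (specRoots e t.1)).toAffine.Point := fun t =>
    Module.Finite.iff_addGroup_fg.mpr inferInstance
  haveI : AddGroup.FG (∀ t : S, (rootCurve (specRoots e t.1)).toAffine.Point) :=
    Module.Finite.iff_addGroup_fg.mp Module.Finite.pi
  refine fg_of_map (AddMonoidHom.pi fun t : S => spec h2 (hS t.1 t.2)) (h := naiveHgt)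
    naiveHgt_nonneg hC fun P hP hP0 => le_trans ?_
      (le_naiveHgt_of_spec_eq_zero h2 S hS hP0 fun t ht => congrFun hP ⟨t, ht⟩)
  have hlog : 0 < Real.log (degBase ℚ) := Real.log_pos one_lt_degBase
  rw [Finset.card_image_of_injective _ Int.cast_injective, hTc]
  rw [div_lt_iff₀ hlog] at hn
  push_cast
  nlinarith

/-- A point killed by two in a good fibre comes from one killed by two. -/
theorem exists_two_torsion_lift (h2 : (2 : F) ≠ 0) {e : Fin 3 → F[X]} {t : F}
    (ht : Function.Injective (specRoots e t))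
    {R : (rootCurve (specRoots e t)).toAffine.Point} (hR : 2 • R = 0) :
    ∃ τ, 2 • τ = 0 ∧ spec h2 ht τ = R := by
  have he := injective_of_specRoots ht
  rcases R with _ | ⟨x, y, h⟩
  · exact ⟨0, nsmul_zero 2, map_zero _⟩
  rw [two_nsmul, add_eq_zero_iff_eq_neg, Affine.Point.neg_some, Affine.Point.some.injEq,
    cubicCurve_negY] at hR
  obtain rfl : y = 0 :=
    (mul_eq_zero.1 (show (2 : F) * y = 0 by linear_combination hR.2)).resolve_left h2
  have heq := (rootData ht).equation.1 h.1
  rw [zero_pow two_ne_zero, eq_comm, mul_eq_zero, mul_eq_zero, sub_eq_zero, sub_eq_zero,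
    sub_eq_zero] at heq
  obtain ⟨i, rfl⟩ : ∃ i, x = specRoots e t i := by
    rcases heq with (e' | e') | e' <;> exact ⟨_, e'⟩
  haveI := (rootData (genRoots_injective he)).isElliptic (two_ne_zero_ratFunc h2)
  have hn : (rootCurve (genRoots e)).toAffine.Nonsingular (genRoots e i) 0 :=
    Affine.equation_iff_nonsingular.mp ((rootData (genRoots_injective he)).equation.2 (by
      fin_cases i <;> simp [rootData]))
  refine ⟨.some _ _ hn, ?_, ?_⟩
  · rw [two_nsmul, Affine.Point.add_of_Y_eq rfl (by rw [cubicCurve_negY, neg_zero])]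
  obtain ⟨hy, h', hs⟩ := spec_some_of_mem h2 ht hn (algebraMap_mem_valueRing t (e i))
  rw [hs, Affine.Point.some.injEq]
  exact ⟨valueAt_algebraMap t _, (valueAt t).map_zero⟩

/-- A rational function with square values on a set not of density zero is a square. -/
theorem isSquare_of_square_valueAt {z : RatFunc ℚ}
    (h : ¬DensityZero {n : ℤ | IsSquare (z.num.eval (n : ℚ) * z.denom.eval (n : ℚ))}) :
    IsSquare z := by
  obtain ⟨q, hq⟩ := isSquare_of_square_values (p := z.num * z.denom) (by simpa [eval_mul] using h)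
  refine ⟨algebraMap ℚ[X] (RatFunc ℚ) q / algebraMap ℚ[X] (RatFunc ℚ) z.denom, ?_⟩
  have hd := RatFunc.algebraMap_ne_zero (K := ℚ) z.denom_ne_zero
  conv_lhs => rw [← RatFunc.num_div_denom z]
  rw [div_mul_div_comm, div_eq_div_iff hd (mul_ne_zero hd hd), ← map_mul, ← map_mul, ← map_mul,
    ← map_mul]
  congr 1
  linear_combination z.denom * hq

/-- Outside the doubles a point stays outside them in almost every fibre. -/
theorem densityZero_spec_double (he : Function.Injective e)
    {P : (rootCurve (genRoots e)).toAffine.Point} (hP : ∀ R, 2 • R ≠ P) :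
    DensityZero {t : ℤ | ∃ ht : Function.Injective (specRoots e (t : ℚ)),
      ∃ R, 2 • R = spec two_ne_zero ht P} := by
  rcases P with _ | ⟨x, y, h⟩
  · exact absurd (nsmul_zero 2) (hP 0)
  have h2K := two_ne_zero_ratFunc (F := ℚ) two_ne_zero
  obtain ⟨i, hi⟩ : ∃ i, sqFun (RatFunc ℚ) (classElt (genRoots e) x i) ≠ 0 := by
    by_contra! hall
    obtain ⟨R, hR⟩ := (rootData (genRoots_injective he)).exists_half_of_classes h2K
      (P := .some x y h) (funext fun i => by rw [classes_eq_sqFun _ h2K h]; exact hall i)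
    exact hP R hR
  set z := classElt (genRoots e) x i
  have hz : z ≠ 0 := classElt_ne_zero (genRoots_injective he) x i
  have hns : ¬IsSquare z := fun ⟨w, hw⟩ => hi (by
    have hw0 : w ≠ 0 := fun h => hz (by rw [hw, h, mul_zero])
    rw [hw, isParity_sqFun hw0 hw0, sqClass_add_self])
  have hfin : {n : ℤ | (z.num * z.denom).IsRoot (n : ℚ)}.Finite :=
    (finite_setOfPred_isRoot (mul_ne_zero (RatFunc.num_ne_zero hz) z.denom_ne_zero)).preimage
      Int.cast_injective.injOn
  refine ((not_not.1 fun hd => hns (isSquare_of_square_valueAt hd)).union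
    (densityZero_of_finite hfin)).mono fun n hn => ?_
  obtain ⟨ht, R, hR⟩ := hn
  by_cases hroot : (z.num * z.denom).IsRoot (n : ℚ)
  · exact Or.inr hroot
  refine Or.inl ?_
  rw [IsRoot, eval_mul, mul_eq_zero, not_or] at hroot
  have hc : (rootData ht).classes two_ne_zero (spec two_ne_zero ht (.some x y h)) i = 0 := by
    rw [← hR, map_nsmul, two_nsmul]
    exact sqClass_add_self _
  rw [classes_spec two_ne_zero ht h i] at hc
  obtain ⟨w, hw⟩ := isSquare_of_sqFun (leadAt_ne_zero _ hz) hc
  rw [leadAt, polyLead_of_eval _ hroot.1, polyLead_of_eval _ hroot.2,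
    div_eq_iff hroot.2] at hw
  exact ⟨w * z.denom.eval (n : ℚ), by rw [hw]; ring⟩

/-- A finitely generated group equal to its doubles is torsion. -/
theorem isOfFinAddOrder_of_divisible {G : Type*} [AddCommGroup G] [AddGroup.FG G]
    (h : ∀ x : G, ∃ y, 2 • y = x) (x : G) : IsOfFinAddOrder x := by
  obtain ⟨r, ⟨f⟩⟩ := FA.MordellWeil.exists_equiv_torsion_prod G
  rcases r with _ | r
  · have hx : (f x).2 = 0 := funext fun i => i.elim0
    have h0 : x = f.symm ((f x).1, 0) := by rw [← hx]; exact (f.symm_apply_apply x).symm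
    obtain ⟨m, hm, hmx⟩ := isOfFinAddOrder_iff_nsmul_eq_zero.1
      ((AddCommGroup.mem_torsion _).1 (f x).1.2)
    refine isOfFinAddOrder_iff_nsmul_eq_zero.2 ⟨m, hm, ?_⟩
    rw [h0, ← map_nsmul, Prod.smul_mk, nsmul_zero,
      show m • (f x).1 = 0 from Subtype.ext hmx, Prod.mk_zero_zero, map_zero]
  · obtain ⟨y, hy⟩ := h (f.symm (0, Pi.single 0 1))
    have e := congrArg (fun v => (f v).2 0) hy
    simp at e
    omega

/-- **Néron's specialisation theorem.** -/
theorem densityZero_spec_not_injective (he : Function.Injective e) :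
    DensityZero {t : ℤ | ∃ ht : Function.Injective (specRoots e (t : ℚ)),
      ¬Function.Injective (spec two_ne_zero ht)} := by
  haveI := fg_point_ratFunc_rat he
  set G := (rootCurve (genRoots e)).toAffine.Point
  set N := (nsmulAddMonoidHom (α := G) 2).range
  haveI : AddGroup.FG (G ⧸ N) := AddGroup.fg_of_surjective (QuotientAddGroup.mk'_surjective N)
  haveI : Finite (G ⧸ N) := AddCommGroup.finite_of_fg_isAddTorsion _ fun v =>
    isOfFinAddOrder_iff_nsmul_eq_zero.2 ⟨2, two_pos, by
      obtain ⟨x, rfl⟩ := QuotientAddGroup.mk'_surjective N v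
      rw [← map_nsmul]
      exact (QuotientAddGroup.eq_zero_iff _).2 ⟨x, rfl⟩⟩
  letI := Fintype.ofFinite (G ⧸ N)
  haveI : Module.Finite ℤ G := Module.Finite.iff_addGroup_fg.mpr inferInstance
  haveI : Module.Finite ℤ (AddSubgroup.toIntSubmodule (AddCommGroup.torsion G)) :=
    Module.Finite.iff_fg.2 (IsNoetherian.noetherian _)
  haveI : AddGroup.FG (AddCommGroup.torsion G) := Module.Finite.iff_addGroup_fg.mp
    (inferInstanceAs (Module.Finite ℤ (AddSubgroup.toIntSubmodule (AddCommGroup.torsion G))))
  haveI : Finite (AddCommGroup.torsion G) := AddCommGroup.finite_of_fg_isAddTorsion _ fun x =>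
    AddSubmonoid.isOfFinAddOrder_coe.1 ((AddCommGroup.mem_torsion _).1 x.2)
  letI := Fintype.ofFinite (AddCommGroup.torsion G)
  -- the fibres where a class is lost
  let B₁ : G ⧸ N → Set ℤ := fun q => if q = 0 then ∅ else {t : ℤ |
    ∃ ht : Function.Injective (specRoots e (t : ℚ)), ∃ R, 2 • R = spec two_ne_zero ht q.out}
  -- the fibres where a torsion point vanishes
  let B₂ : AddCommGroup.torsion G → Set ℤ := fun x => if x = 0 then ∅ else {t : ℤ |
    ∃ ht : Function.Injective (specRoots e (t : ℚ)), spec two_ne_zero ht (x : G) = 0}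
  have h₁ : ∀ q, DensityZero (B₁ q) := fun q => by
    simp only [B₁]
    split_ifs with hq
    · exact densityZero_of_finite Set.finite_empty
    refine densityZero_spec_double he fun R hR => hq ?_
    rw [← Quotient.out_eq q]
    exact (QuotientAddGroup.eq_zero_iff _).2 ⟨R, hR⟩
  have h₂ : ∀ x, (B₂ x).Finite := fun x => by
    simp only [B₂]
    split_ifs with hx
    · exact Set.finite_empty
    obtain ⟨_ | ⟨X, Y, h⟩, hxT⟩ := x
    · exact absurd (Subtype.ext rfl) hx
    refine ((finite_setOfPred_isRoot X.denom_ne_zero).preimage Int.cast_injective.injOn).subset ?_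
    rintro t ⟨ht, hst⟩
    by_contra hne
    obtain ⟨hy, h', hs⟩ := spec_some_of_mem two_ne_zero ht h
      (show X ∈ valueRing (t : ℚ) from hne)
    rw [hst] at hs
    exact Affine.Point.some_ne_zero _ hs.symm
  refine ((densityZero_biUnion Finset.univ fun q _ => h₁ q).union
    (densityZero_biUnion Finset.univ fun x _ => densityZero_of_finite (h₂ x))).mono ?_
  rintro t ⟨ht, hinj⟩
  by_contra hout
  simp only [Set.mem_union, Set.mem_iUnion, Finset.mem_univ, exists_const, not_or, not_exists] at hout
  obtain ⟨hout₁, hout₂⟩ := hout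
  set f := spec two_ne_zero ht
  have hdiv : ∀ x : f.ker, ∃ y : f.ker, 2 • y = x := fun x => by
    have hq : (QuotientAddGroup.mk (x : G) : G ⧸ N) = 0 := by
      by_contra hq
      obtain ⟨R, hR⟩ := QuotientAddGroup.eq.1
        (Quotient.out_eq (QuotientAddGroup.mk (x : G) : G ⧸ N)).symm
      refine hout₁ (QuotientAddGroup.mk (x : G)) ?_
      simp only [B₁, if_neg hq]
      refine ⟨ht, f R, ?_⟩
      rw [← map_nsmul, ← nsmulAddMonoidHom_apply, hR, map_add, map_neg,
        AddMonoidHom.mem_ker.1 x.2, neg_zero, zero_add]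
    obtain ⟨g, hg⟩ := (QuotientAddGroup.eq_zero_iff _).1 hq
    rw [nsmulAddMonoidHom_apply] at hg
    have hg2 : 2 • f g = 0 := by rw [← map_nsmul, hg]; exact AddMonoidHom.mem_ker.1 x.2
    obtain ⟨τ, hτ, hfτ⟩ := exists_two_torsion_lift two_ne_zero ht hg2
    refine ⟨⟨g - τ, AddMonoidHom.mem_ker.2 (by rw [map_sub, hfτ, sub_self])⟩, Subtype.ext ?_⟩
    rw [AddSubgroup.coe_nsmul, nsmul_sub, hg, hτ, sub_zero]
  haveI : Module.Finite ℤ (AddSubgroup.toIntSubmodule f.ker) :=
    Module.Finite.iff_fg.2 (IsNoetherian.noetherian _)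
  haveI : AddGroup.FG f.ker := Module.Finite.iff_addGroup_fg.mp
    (inferInstanceAs (Module.Finite ℤ (AddSubgroup.toIntSubmodule f.ker)))
  refine hinj ((injective_iff_map_eq_zero f).2 fun x hx => by_contra fun hx0 => ?_)
  have htor : x ∈ AddCommGroup.torsion G := (AddCommGroup.mem_torsion _).2
    (AddSubmonoid.isOfFinAddOrder_coe.2 (isOfFinAddOrder_of_divisible hdiv ⟨x, hx⟩))
  refine hout₂ ⟨x, htor⟩ ?_
  simp only [B₂, if_neg (fun he : (⟨x, htor⟩ : AddCommGroup.torsion G) = 0 =>
    hx0 (congrArg Subtype.val he))]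
  exact ⟨ht, hx⟩

end FA.NeronSpecialisation
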