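import Fermat.Agent.FunctionFieldMW.Main
import Fermat.Agent.AbTors.JoinField
import Fermat.Agent.PicTors.CountComplex
import Fermat.Agent.PicTors.OfComplex

/-!
# Weak Mordell–Weil over `K(T)` for an algebraically closed `K` of characteristic zero

Constants are squares, and a function with even orders everywhere is a square up to one of the
finitely many classes of degree zero killed by two; so finitely many square classes have even
orders outside a finite set of places.
-/

set_option autoImplicit false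
set_option linter.unusedSectionVars false
set_option linter.style.haveILetI false

noncomputable section

open AlgebraicCurve FA.Curve FA.ModField
open FA.FunctionFieldMW
open FA.FunctionFieldRank (IsParity)
open scoped Classical

namespace FA.NeronSpecialisation

variable {K L : Type*} [Field K] [IsAlgClosed K] [Field L] [Algebra K L]

/-- A function without zeros or poles is a square. -/
theorem isSquare_of_ord_eq_zero (hF : IsFunctionField K L) {f : L}
    (h : ∀ v : Place K L, v.ord f = 0) : IsSquare f := by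
  have hm := mem_span_of_isConst (f := f) (fun v => Or.inr (h v).ge)
    fun g hg => exists_ord_neg hF hg
  obtain ⟨c, rfl⟩ := Submodule.mem_span_singleton.1 hm
  obtain ⟨d, hd⟩ := IsAlgClosed.exists_eq_mul_self c
  exact ⟨algebraMap K L d, by rw [Algebra.smul_def, mul_one, hd, map_mul]⟩

theorem add_pair {A : Type*} [AddCommGroup A] (h2 : ∀ w : A, w + w = 0) (u w : A) :
    u + (w + w) = u := by rw [h2, add_zero]

theorem eq_of_sqFun_add_eq_zero {M : Type*} [Field M]
    {u v : Additive (Mˣ ⧸ (powMonoidHom 2 : Mˣ →* Mˣ).range)} (h : u + v = 0) : u = v :=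
  have key : ∀ {A : Type _} [AddCommGroup A], (∀ w : A, w + w = 0) → ∀ {u v : A}, u + v = 0 → u = v :=
    fun h2 _ v h => add_right_cancel (h.trans (h2 v).symm)
  key sqClass_add_self h

/-- The classes with even orders everywhere are finitely many. -/
theorem finite_allEven_classes [CharZero K] (hF : IsFunctionField K L) :
    (sqFun L '' {z | z ≠ 0 ∧ ∀ v : Place K L, Even (v.ord z)}).Finite := by
  haveI : Finite (Pic0.torsion K L 2) := Nat.finite_of_card_ne_zero (by
    rw [FA.PicTors.natCard_torsion_of_functionField FA.PicTors.countComplex hF 2 two_ne_zero]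
    positivity)
  set A := {z : L | z ≠ 0 ∧ ∀ v : Place K L, Even (v.ord z)}
  let half : L → Divisor K L := fun z => (divOf hF z).mapRange (fun n => n / 2) (by simp)
  have htwo : ∀ z ∈ A, half z + half z = divOf hF z := fun z hz => Finsupp.ext fun v => by
    obtain ⟨k, hk⟩ := hz.2 v
    simp only [half, Finsupp.add_apply, Finsupp.mapRange_apply, divOf_apply, hk]
    omega
  have hdeg : ∀ z ∈ A, half z ∈ Divisor.degZero (K := K) (F := L) := fun z hz => by
    rw [Divisor.mem_degZero]
    have h := congrArg Divisor.degree (htwo z hz)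
    rw [map_add, degree_divOf hF] at h
    omega
  have htor : ∀ z (hz : z ∈ A), Pic0.mk ⟨half z, hdeg z hz⟩ ∈ Pic0.torsion K L 2 := fun z hz => by
    rw [Pic0.mem_torsion, Nat.cast_two, two_zsmul, ← Pic0.mk_add]
    refine (QuotientAddGroup.eq_zero_iff _).2 (AddSubgroup.mem_addSubgroupOf.2 ?_)
    exact Divisor.mem_principal.2 ⟨z, hz.1, fun v => by
      rw [AddSubgroup.coe_add, htwo z hz]; exact divOf_apply hF z v⟩
  let cl : A → Pic0.torsion K L 2 := fun z => ⟨_, htor z.1 z.2⟩
  have hsame : ∀ z z' : A, cl z = cl z' → sqFun L z.1 = sqFun L z'.1 := by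
    rintro ⟨z, hz⟩ ⟨z', hz'⟩ e
    obtain ⟨g, hg, hge⟩ := Divisor.mem_principal.1 (AddSubgroup.mem_addSubgroupOf.1
      (QuotientAddGroup.eq.1 (congrArg Subtype.val e :
        Pic0.mk ⟨half z, hdeg z hz⟩ = Pic0.mk ⟨half z', hdeg z' hz'⟩)))
    have hne : z * z' * (g * g) ≠ 0 := mul_ne_zero (mul_ne_zero hz.1 hz'.1) (mul_ne_zero hg hg)
    set w := z * g * g * z'⁻¹ with hw
    have hw0 : ∀ v : Place K L, v.ord w = 0 := fun v => by
      rw [hw, v.ord_mul (mul_ne_zero (mul_ne_zero hz.1 hg) hg) (inv_ne_zero hz'.1),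
        v.ord_mul (mul_ne_zero hz.1 hg) hg, v.ord_mul hz.1 hg, v.ord_inv]
      have h1 := hge v
      simp only [AddSubgroup.coe_add, NegMemClass.coe_neg, Finsupp.add_apply,
        Finsupp.neg_apply] at h1
      have h2 : half z v + half z v = v.ord z := by
        rw [← Finsupp.add_apply, htwo z hz, divOf_apply]
      have h3 : half z' v + half z' v = v.ord z' := by
        rw [← Finsupp.add_apply, htwo z' hz', divOf_apply]
      omega
    obtain ⟨s, hs⟩ := isSquare_of_ord_eq_zero hF hw0
    have hmul : z * z' = (s * z' / g) * (s * z' / g) := by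
      rw [div_mul_div_comm, show s * z' * (s * z') = s * s * z' * z' by ring, ← hs, hw]
      field_simp
    have hs0 : s * z' / g ≠ 0 := fun h => mul_ne_zero hz.1 hz'.1 (by rw [hmul, h, mul_zero])
    refine eq_of_sqFun_add_eq_zero ?_
    rw [← isParity_sqFun hz.1 hz'.1, hmul, isParity_sqFun hs0 hs0, sqClass_add_self]
  refine (Set.finite_range fun c : Pic0.torsion K L 2 =>
    if h : ∃ z : A, cl z = c then sqFun L h.choose.1 else 0).subset ?_
  rintro _ ⟨z, hz, rfl⟩
  have h : ∃ z' : A, cl z' = cl ⟨z, hz⟩ := ⟨⟨z, hz⟩, rfl⟩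
  exact ⟨cl ⟨z, hz⟩, by simp only [dif_pos h]; exact hsame h.choose ⟨z, hz⟩ h.choose_spec⟩

/-- The classes with even orders outside a finite set of places are finitely many. -/
theorem finite_even_classes_of_algClosed [CharZero K] (hF : IsFunctionField K L)
    (S : Finset (Place K L)) :
    (sqFun L '' {z | z ≠ 0 ∧ ∀ v : Place K L, v ∉ S → Even (v.ord z)}).Finite := by
  set A := {z : L | z ≠ 0 ∧ ∀ v : Place K L, v ∉ S → Even (v.ord z)}
  let par : L → S → ZMod 2 := fun z v => (v.1.ord z : ZMod 2)
  let rep : (S → ZMod 2) → L := fun π => if h : ∃ z ∈ A, par z = π then h.choose else 1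
  refine (Set.finite_iUnion fun π : S → ZMod 2 =>
    (finite_allEven_classes hF).image (fun c => sqFun L (rep π) + c)).subset ?_
  rintro _ ⟨z, hz, rfl⟩
  have h : ∃ z' ∈ A, par z' = par z := ⟨z, hz, rfl⟩
  obtain ⟨hr, hpar⟩ := h.choose_spec
  refine Set.mem_iUnion.2 ⟨par z, sqFun L (z * h.choose),
    ⟨z * h.choose, ⟨mul_ne_zero hz.1 hr.1, fun v => ?_⟩, rfl⟩, ?_⟩
  · rw [v.ord_mul hz.1 hr.1]
    by_cases hv : v ∈ S
    · rw [even_iff_two_dvd, ← Nat.cast_two, ← ZMod.intCast_zmod_eq_zero_iff_dvd]
      push_cast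
      rw [show (v.ord h.choose : ZMod 2) = (v.ord z : ZMod 2) from congrFun hpar ⟨v, hv⟩,
        CharTwo.add_self_eq_zero]
    · exact (hz.2 v hv).add (hr.2 v hv)
  · simp only [rep, dif_pos h]
    rw [← isParity_sqFun hr.1 (mul_ne_zero hz.1 hr.1),
      show h.choose * (z * h.choose) = z * (h.choose * h.choose) by ring,
      isParity_sqFun hz.1 (mul_ne_zero hr.1 hr.1), isParity_sqFun hr.1 hr.1]
    exact add_pair sqClass_add_self _ _

/-- **Finitely many classes over an algebraically closed field of constants.** -/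
theorem finite_range_classes_algClosed [CharZero K] (hF : IsFunctionField K L) {a b c : L}
    (D : RootData a b c) (h2 : (2 : L) ≠ 0) : (Set.range (D.classes h2)).Finite := by
  set S : Finset (Place K L) :=
    (Finset.univ : Finset (Fin 3 × Fin 3)).biUnion fun z => (divOf hF (D.e z.1 - D.e z.2)).support
  have hdiff : ∀ v ∉ S, ∀ j k : Fin 3, v.ord (D.e j - D.e k) = 0 := fun v hv j k => by
    by_contra h
    exact hv (Finset.mem_biUnion.2 ⟨(j, k), Finset.mem_univ _,
      Finsupp.mem_support_iff.2 (by rwa [divOf_apply])⟩)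
  refine ((Set.Finite.pi' fun _ : Fin 3 =>
    (finite_even_classes_of_algClosed hF S).insert 0).subset ?_)
  rintro _ ⟨P, rfl⟩ i
  rcases P with _ | ⟨x, y, h⟩
  · exact Or.inl (congrFun (map_zero (D.classes h2)) i)
  refine Or.inr ?_
  rw [D.classes_some h2 h]
  split_ifs with hi
  · have hb : 3 * D.e i ^ 2 + 2 * a * D.e i + b ≠ 0 := D.shift_ne i
    refine ⟨_, ⟨hb, fun v hv => ?_⟩, rfl⟩
    obtain ⟨j, k, hij, hik, e⟩ : ∃ j k, i ≠ j ∧ i ≠ k ∧
        3 * D.e i ^ 2 + 2 * a * D.e i + b = (D.e i - D.e j) * (D.e i - D.e k) := by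
      obtain ⟨r, rfl, rfl, rfl, hr⟩ := D
      fin_cases i
      · exact ⟨1, 2, by decide, by decide, by simp only [Fin.zero_eta]; ring⟩
      · exact ⟨0, 2, by decide, by decide, by simp only [Fin.mk_one]; ring⟩
      · exact ⟨0, 1, by decide, by decide, by simp only [Fin.reduceFinMk]; ring⟩
    rw [e, v.ord_mul (D.ne hij) (D.ne hik), hdiff v hv, hdiff v hv]
    exact ⟨0, rfl⟩
  refine ⟨_, ⟨sub_ne_zero.2 hi, fun v hv => ?_⟩, rfl⟩
  by_cases hall : ∃ j, x = D.e j
  · obtain ⟨j, rfl⟩ := hall
    rw [hdiff v hv]; exact ⟨0, rfl⟩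
  push Not at hall
  have h0 := fun j => sub_ne_zero.2 (hall j)
  have e := D.equation.1 h.1
  have hy : y ≠ 0 := fun hy => by
    rw [hy, zero_pow two_ne_zero, eq_comm] at e
    exact mul_ne_zero (mul_ne_zero (h0 0) (h0 1)) (h0 2) e
  have hsum := congrArg v.ord e
  rw [sq, v.ord_mul hy hy, v.ord_mul (mul_ne_zero (h0 0) (h0 1)) (h0 2),
    v.ord_mul (h0 0) (h0 1)] at hsum
  set u := fun j => v.ord (x - D.e j) with hu
  have hb : ∀ j k, j ≠ k → min (u j) (u k) ≤ 0 ∧ min (u k) 0 ≤ u j := fun j k hjk => by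
    have h1 : AtLeast v (min (u j) (u k)) (x - D.e j - (x - D.e k)) :=
      AtLeast.sub (Or.inr (min_le_left _ _)) (Or.inr (min_le_right _ _))
    rw [sub_sub_sub_cancel_left, atLeast_iff (D.ne (Ne.symm hjk)), hdiff v hv] at h1
    have h2 : AtLeast v (min (u k) 0) (x - D.e k - (D.e j - D.e k)) :=
      AtLeast.sub (Or.inr (min_le_left _ _)) (Or.inr (by rw [hdiff v hv]; exact min_le_right _ _))
    rw [show x - D.e k - (D.e j - D.e k) = x - D.e j by ring, atLeast_iff (h0 j)] at h2
    exact ⟨h1, h2⟩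
  change Even (u i)
  have := hb 0 1 (by decide)
  have := hb 1 0 (by decide)
  have := hb 0 2 (by decide)
  have := hb 2 0 (by decide)
  have := hb 1 2 (by decide)
  have := hb 2 1 (by decide)
  change v.ord y + v.ord y = u 0 + u 1 + u 2 at hsum
  rw [Int.even_iff]
  fin_cases i <;> simp only [Fin.zero_eta, Fin.mk_one, Fin.reduceFinMk] <;> omega

/-- **Weak Mordell–Weil over `K(T)`**, `K` algebraically closed of characteristic zero. -/
theorem finiteIndex_cubicCurve_algClosed {K : Type*} [Field K] [IsAlgClosed K] [CharZero K]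
    (a b c : RatFunc K) [(cubicCurve a b c).IsElliptic] :
    (nsmulAddMonoidHom (α := (cubicCurve a b c).toAffine.Point) 2).range.FiniteIndex := by
  have h2 : (2 : RatFunc K) ≠ 0 := fun e => two_ne_zero (α := K)
    ((algebraMap K (RatFunc K)).injective (by rw [map_ofNat, map_zero]; exact e))
  refine finiteIndex_cubicCurve_of h2 a b c fun D h => ?_
  exact finite_range_classes_algClosed
    (FA.AbTors.isFunctionField_of_finite_ratFunc (M := K)) D h

end FA.NeronSpecialisation
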