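import Fermat.Agent.NeronSpecialisation.GeneralSpec
import Fermat.Agent.NeronSpecialisation.AlgClosedClasses
import Fermat.Agent.NeronSpecialisation.Main
import Fermat.Agent.EC.TorsionCard
import Mathlib.FieldTheory.Galois.Infinite

/-!
# From `ℚ̄(T)` to `ℚ(T)`

A rational point divisible by two over `ℚ̄(T)` which is twice a rational point in one good fibre is
determined modulo doubles by a point killed by two in that fibre over `ℚ̄`, as specialisation is
injective on the points killed by two. So weak Mordell–Weil descends from `ℚ̄(T)`.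
-/

set_option autoImplicit false
set_option linter.unusedSectionVars false
set_option linter.style.haveILetI false

noncomputable section

open WeierstrassCurve Polynomial
open FA.FunctionFieldMW
open FA.FunctionFieldRank (pointMap pointMap_some pointMap_injective)
open scoped Classical

namespace FA.NeronSpecialisation

attribute [local instance 2000] ratDecEq

/-- Weak Mordell–Weil passes along a surjection. -/
theorem finiteIndex_two_of_surjective {G H : Type*} [AddCommGroup G] [AddCommGroup H] (f : G →+ H)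
    (hf : Function.Surjective f) [(nsmulAddMonoidHom (α := G) 2).range.FiniteIndex] :
    (nsmulAddMonoidHom (α := H) 2).range.FiniteIndex := by
  haveI : Finite (H ⧸ (nsmulAddMonoidHom (α := H) 2).range) := by
    refine Finite.of_surjective (fun q : G ⧸ (nsmulAddMonoidHom (α := G) 2).range =>
      (QuotientAddGroup.mk (f q.out) : H ⧸ (nsmulAddMonoidHom (α := H) 2).range)) fun r => ?_
    obtain ⟨y, rfl⟩ := QuotientAddGroup.mk_surjective r
    obtain ⟨x, rfl⟩ := hf y
    obtain ⟨u, hu⟩ := QuotientAddGroup.eq.1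
      (Quotient.out_eq (QuotientAddGroup.mk x : G ⧸ (nsmulAddMonoidHom (α := G) 2).range))
    refine ⟨QuotientAddGroup.mk x, QuotientAddGroup.eq.2 ⟨f u, ?_⟩⟩
    rw [nsmulAddMonoidHom_apply] at hu ⊢
    rw [← map_nsmul, hu, map_add, map_neg]
  exact AddSubgroup.finiteIndex_of_finite_quotient

/-- Weak Mordell–Weil for every elliptic curve over `K(T)`. -/
theorem finiteIndex_two_algClosed {K : Type*} [Field K] [IsAlgClosed K] [CharZero K]
    (E : WeierstrassCurve (RatFunc K)) [E.IsElliptic] :
    (nsmulAddMonoidHom (α := E.toAffine.Point) 2).range.FiniteIndex := by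
  have h2 : (2 : RatFunc K) ≠ 0 := fun e => two_ne_zero (α := K)
    ((algebraMap K (RatFunc K)).injective (by rw [map_ofNat, map_zero]; exact e))
  set C : VariableChange (RatFunc K) := ⟨1, 0, -E.a₁ / 2, -E.a₃ / 2⟩
  have hC : C • E = cubicCurve (C • E).a₂ (C • E).a₄ (C • E).a₆ := by
    ext <;> simp [C, variableChange_a₁, variableChange_a₃]
    · field_simp; ring
    · field_simp; ring
  haveI : (cubicCurve (C • E).a₂ (C • E).a₄ (C • E).a₆).IsElliptic :=
    hC ▸ (inferInstance : (C • E).IsElliptic)
  haveI := finiteIndex_cubicCurve_algClosed (C • E).a₂ (C • E).a₄ (C • E).a₆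
  exact finiteIndex_two_of_surjective (FA.Frob.vcEquiv C hC).toAddMonoidHom
    (FA.Frob.vcEquiv C hC).surjective

variable {F L : Type*} [Field F] [Field L] (g : F →+* L)

/-- A rational function whose coefficients come from `F`. -/
theorem exists_constMap_eq (x : RatFunc L)
    (hn : ∀ k, x.num.coeff k ∈ g.range) (hd : ∀ k, x.denom.coeff k ∈ g.range) :
    ∃ y, constMap g y = x := by
  obtain ⟨n, hn'⟩ := (Polynomial.mem_lifts (f := g) x.num).1
    ((Polynomial.lifts_iff_coeff_lifts _).2 fun k => hn k)
  obtain ⟨d, hd'⟩ := (Polynomial.mem_lifts (f := g) x.denom).1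
    ((Polynomial.lifts_iff_coeff_lifts _).2 fun k => hd k)
  refine ⟨algebraMap _ _ n / algebraMap _ _ d, ?_⟩
  rw [map_div₀, constMap_algebraMap, constMap_algebraMap, hn', hd', RatFunc.num_div_denom]

theorem constMap_fix {σ : L →+* L} (hσ : σ.comp g = g) (x : RatFunc F) :
    constMap σ (constMap g x) = constMap g x := by
  rw [constMap_eq_div σ, num_constMap, denom_constMap, Polynomial.map_map, Polynomial.map_map, hσ]
  exact (constMap_eq_div g x).symm

/-- A point over `K(T)` whose double and whose specialisation are rational over `F` is rational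
over `F`: its conjugates have the same double and the same specialisation. -/
theorem exists_preimage_of_spec_rational {F K : Type*} [Field F] [Field K] [Algebra F K]
    [IsGalois F K] (h2 : (2 : K) ≠ 0) {W : WeierstrassCurve F[X]} {W' : WeierstrassCurve K[X]}
    {t : F} {t' : K} (hW : W.map (mapRingHom (algebraMap F K)) = W') (htt : algebraMap F K t = t')
    (ht' : (fibreW W' t').Δ ≠ 0)
    (hG : (genW W).map (constMap (algebraMap F K)) = genW W')
    (hF : (fibreW W t).map (algebraMap F K) = fibreW W' t')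
    {Q : (genW W').toAffine.Point} {P : (genW W).toAffine.Point}
    (hQP : 2 • Q = pointMap _ hG P)
    {R : (fibreW W t).toAffine.Point} (hQR : specW _ ht' Q = pointMap _ hF R) :
    ∃ Q₀, pointMap _ hG Q₀ = Q := by
  have hστ : ∀ σ : K ≃ₐ[F] K, σ.toRingEquiv.toRingHom.comp (algebraMap F K) = algebraMap F K :=
    fun σ => RingHom.ext fun q => σ.commutes q
  have hσW : ∀ σ : K ≃ₐ[F] K, W'.map (mapRingHom σ.toRingEquiv.toRingHom) = W' := fun σ => by
    rw [← hW, WeierstrassCurve.map_map]
    congr 1
    exact RingHom.ext fun p => by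
      rw [RingHom.comp_apply, coe_mapRingHom, coe_mapRingHom, Polynomial.map_map, hστ]
  have hσt : ∀ σ : K ≃ₐ[F] K, σ.toRingEquiv.toRingHom t' = t' := fun σ => by
    rw [← htt]; exact σ.commutes t
  have hσF : ∀ σ : K ≃ₐ[F] K, (fibreW W' t').map σ.toRingEquiv.toRingHom = fibreW W' t' := fun σ => by
    rw [fibreW_map, hσW, hσt]
  have hσG : ∀ σ : K ≃ₐ[F] K, (genW W').map (constMap σ.toRingEquiv.toRingHom) = genW W' :=
    fun σ => by rw [genW_map, hσW]
  have hfixσ : ∀ σ : K ≃ₐ[F] K, pointMap (constMap σ.toRingEquiv.toRingHom) (hσG σ) Q = Q := by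
    intro σ
    have hιfix : pointMap (constMap σ.toRingEquiv.toRingHom) (hσG σ) (pointMap _ hG P) =
        pointMap _ hG P := by
      rcases P with _ | ⟨x, y, h⟩
      · rfl
      · simp only [pointMap_some, constMap_fix (algebraMap F K) (hστ σ)]
    have hjfix : pointMap σ.toRingEquiv.toRingHom (hσF σ) (pointMap _ hF R) = pointMap _ hF R := by
      rcases R with _ | ⟨x, y, h⟩
      · rfl
      · rw [pointMap_some, pointMap_some, Affine.Point.some.injEq]
        exact ⟨σ.commutes x, σ.commutes y⟩
    have hzero : specW W' ht' (pointMap (constMap σ.toRingEquiv.toRingHom) (hσG σ) Q - Q) = 0 := by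
      rw [map_sub, pointMap_specW σ.toRingEquiv.toRingHom (hσW σ) (hσt σ) ht' ht' (hσG σ) (hσF σ),
        hQR, hjfix, sub_self]
    refine sub_eq_zero.1 (specW_two_torsion h2 ht' ?_ hzero)
    rw [nsmul_sub, ← map_nsmul, hQP, hιfix, sub_self]
  rcases Q with _ | ⟨x, y, h⟩
  · exact ⟨0, map_zero _⟩
  have hcoeff : ∀ σ : K ≃ₐ[F] K, constMap σ.toRingEquiv.toRingHom x = x ∧
      constMap σ.toRingEquiv.toRingHom y = y := fun σ => by
    have e := hfixσ σ
    rwa [pointMap_some, Affine.Point.some.injEq] at e
  have hex : ∀ z : RatFunc K, (∀ σ : K ≃ₐ[F] K, constMap σ.toRingEquiv.toRingHom z = z) →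
      ∃ z₀, constMap (algebraMap F K) z₀ = z := fun z hz => by
    refine exists_constMap_eq _ z (fun k => ?_) (fun k => ?_)
    · refine (InfiniteGalois.mem_range_algebraMap_iff_fixed _).2 fun σ => ?_
      conv_rhs => rw [← hz σ, num_constMap, Polynomial.coeff_map]
      rfl
    · refine (InfiniteGalois.mem_range_algebraMap_iff_fixed _).2 fun σ => ?_
      conv_rhs => rw [← hz σ, denom_constMap, Polynomial.coeff_map]
      rfl
  obtain ⟨x₀, hx₀⟩ := hex x fun σ => (hcoeff σ).1
  obtain ⟨y₀, hy₀⟩ := hex y fun σ => (hcoeff σ).2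
  have hns : (genW W).toAffine.Nonsingular x₀ y₀ := by
    rw [← Affine.map_nonsingular _ (f := constMap (algebraMap F K)) (RingHom.injective _), hx₀, hy₀]
    show ((genW W).map (constMap (algebraMap F K))).toAffine.Nonsingular x y
    rw [hG]; exact h
  exact ⟨.some x₀ y₀ hns, by rw [pointMap_some, Affine.Point.some.injEq]; exact ⟨hx₀, hy₀⟩⟩

/-- Weak Mordell–Weil over `ℚ(T)`, from any algebraic closure of `ℚ`. -/
theorem finiteIndex_two_ratFunc_of_closure (K : Type*) [Field K] [Algebra ℚ K] [IsGalois ℚ K]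
    [IsAlgClosed K] [CharZero K] {W : WeierstrassCurve ℚ[X]} {t : ℚ}
    (ht : (fibreW W t).Δ ≠ 0) :
    (nsmulAddMonoidHom (α := (genW W).toAffine.Point) 2).range.FiniteIndex := by
  let g : ℚ →+* K := algebraMap ℚ K
  let W' := W.map (mapRingHom g)
  have hG : (genW W).map (constMap g) = genW W' := genW_map g W
  have hF : (fibreW W t).map g = fibreW W' (g t) := fibreW_map g W t
  have ht' : (fibreW W' (g t)).Δ ≠ 0 := fibreW_map_ne g ht
  haveI : (genW W').IsElliptic := genW_isElliptic fun e => eval_Δ_ne ht' (by rw [e, eval_zero])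
  haveI := fibreW_isElliptic ht
  haveI := fibreW_isElliptic ht'
  haveI := finiteIndex_two_algClosed (genW W')
  haveI : AddGroup.FG (fibreW W t).toAffine.Point := by
    convert FA.MordellWeil.mordell (fibreW W t)
  set A := (nsmulAddMonoidHom (α := (genW W').toAffine.Point) 2).range
  set B := (nsmulAddMonoidHom (α := (fibreW W t).toAffine.Point) 2).range
  haveI : AddGroup.FG ((fibreW W t).toAffine.Point ⧸ B) :=
    AddGroup.fg_of_surjective (QuotientAddGroup.mk'_surjective B)
  haveI : Finite ((fibreW W t).toAffine.Point ⧸ B) :=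
    AddCommGroup.finite_of_fg_isAddTorsion _ fun v => isOfFinAddOrder_iff_nsmul_eq_zero.2
      ⟨2, two_pos, by
        obtain ⟨x, rfl⟩ := QuotientAddGroup.mk'_surjective B v
        rw [← map_nsmul]
        exact (QuotientAddGroup.eq_zero_iff _).2 ⟨x, rfl⟩⟩
  haveI : Finite {y : (fibreW W' (g t)).toAffine.Point // 2 • y = 0} := Nat.finite_of_card_ne_zero (by
    rw [FA.EC.natCard_nsmul_eq_zero (fibreW W' (g t)) (n := 2)
      (by rw [Nat.cast_ofNat]; exact two_ne_zero)]
    norm_num)
  set N := (nsmulAddMonoidHom (α := (genW W).toAffine.Point) 2).range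
  let ι := pointMap (constMap g) hG
  let j := pointMap g hF
  let v : (genW W).toAffine.Point → _ := fun P =>
    ((QuotientAddGroup.mk (ι P) : _ ⧸ A), (QuotientAddGroup.mk (specW W ht P) : _ ⧸ B))
  let base : ((genW W').toAffine.Point ⧸ A) × ((fibreW W t).toAffine.Point ⧸ B) →
      (genW W).toAffine.Point := fun u => if h : ∃ P, v P = u then h.choose else 0
  have hbase : ∀ P, ∃ Q R, 2 • Q = ι (P - base (v P)) ∧ 2 • R = specW W ht (P - base (v P)) :=
    fun P => by
      have h : ∃ P', v P' = v P := ⟨P, rfl⟩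
      have e := h.choose_spec
      simp only [base, dif_pos h]
      obtain ⟨Q, hQ⟩ := QuotientAddGroup.eq.1 (congrArg Prod.fst e)
      obtain ⟨R, hR⟩ := QuotientAddGroup.eq.1 (congrArg Prod.snd e)
      rw [nsmulAddMonoidHom_apply] at hQ hR
      exact ⟨Q, R, by rw [hQ, map_sub]; abel, by rw [hR, map_sub]; abel⟩
  choose Q R hQ hR using hbase
  let τ₀ : (genW W).toAffine.Point → {y : (fibreW W' (g t)).toAffine.Point // 2 • y = 0} := fun P =>
    ⟨specW W' ht' (Q P) - j (R P), by
      rw [nsmul_sub, ← map_nsmul, ← map_nsmul, hQ, hR,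
        pointMap_specW g rfl rfl ht ht' hG hF, sub_self]⟩
  haveI : Finite ((genW W).toAffine.Point ⧸ N) :=
    Finite.of_injective (fun q => (v q.out, τ₀ q.out)) fun q q' e => by
      obtain ⟨e₁, e₂⟩ := Prod.mk.injEq .. ▸ e
      have e₂' : specW W' ht' (Q q.out) - j (R q.out) = specW W' ht' (Q q'.out) - j (R q'.out) :=
        congrArg Subtype.val e₂
      obtain ⟨x, hx⟩ := exists_preimage_of_spec_rational two_ne_zero rfl rfl ht' hG hF (Q := Q q.out - Q q'.out)
        (P := q.out - q'.out) (R := R q.out - R q'.out)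
        (by rw [nsmul_sub, hQ, hQ, e₁, ← map_sub, sub_sub_sub_cancel_right])
        (by
          rw [map_sub, map_sub, ← sub_eq_zero]
          rw [← sub_eq_zero] at e₂'
          simp only [j] at e₂'
          rw [← e₂']; abel)
      have h2 : ι (2 • x) = ι (q.out - q'.out) := by
        rw [map_nsmul, show ι x = Q q.out - Q q'.out from hx, nsmul_sub, hQ, hQ, e₁, ← map_sub,
          sub_sub_sub_cancel_right]
      rw [← QuotientAddGroup.out_eq' q, ← QuotientAddGroup.out_eq' q', QuotientAddGroup.eq]
      exact ⟨-x, by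
        rw [nsmulAddMonoidHom_apply, neg_nsmul, pointMap_injective (constMap g) hG h2]; abel⟩
  exact AddSubgroup.finiteIndex_of_finite_quotient

/-- **Weak Mordell–Weil over `ℚ(T)`.** -/
theorem finiteIndex_two_ratFunc_rat {W : WeierstrassCurve ℚ[X]} {t : ℚ}
    (ht : (fibreW W t).Δ ≠ 0) :
    (nsmulAddMonoidHom (α := (genW W).toAffine.Point) 2).range.FiniteIndex :=
  finiteIndex_two_ratFunc_of_closure (AlgebraicClosure ℚ) ht

end FA.NeronSpecialisation
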