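import Fermat.Agent.NeronSpecialisation.GaloisDescent

/-!
# Mordell–Weil over `ℚ(T)` for every elliptic curve
-/

set_option autoImplicit false
set_option linter.unusedSectionVars false
set_option linter.style.haveILetI false

noncomputable section

open WeierstrassCurve Polynomial
open FA.FunctionFieldRank (heightData naiveHgt naiveHgt_nonneg naiveHgt_parallelogram degBase
  one_lt_degBase)
open scoped Classical

namespace FA.NeronSpecialisation

attribute [local instance] heightData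
attribute [local instance 2000] ratDecEq

/-- Finitely many fibres are singular. -/
theorem finite_singular_fibres {W : WeierstrassCurve ℚ[X]} (hW : W.Δ ≠ 0) :
    {t : ℤ | (fibreW W (t : ℚ)).Δ = 0}.Finite :=
  ((finite_setOfPred_isRoot hW).preimage Int.cast_injective.injOn).subset fun t ht => by
    have h : (fibreW W (t : ℚ)).Δ = 0 := ht
    rw [fibreW, WeierstrassCurve.map_Δ] at h
    exact h

theorem fg_fibreW {W : WeierstrassCurve ℚ[X]} {t : ℚ} (ht : (fibreW W t).Δ ≠ 0) :
    AddGroup.FG (fibreW W t).toAffine.Point := by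
  haveI := fibreW_isElliptic ht
  convert FA.MordellWeil.mordell (fibreW W t)

/-- **Mordell–Weil over `ℚ(T)`** for an equation over `ℚ[T]`. -/
theorem fg_point_genW {W : WeierstrassCurve ℚ[X]} (hW : W.Δ ≠ 0) :
    AddGroup.FG (genW W).toAffine.Point := by
  haveI := genW_isElliptic hW
  obtain ⟨C, hC⟩ := naiveHgt_parallelogram (E := genW W)
  obtain ⟨n, hn⟩ := exists_nat_gt
    ((naiveHgt (0 : (genW W).toAffine.Point) + C + 1) / Real.log (degBase ℚ))
  obtain ⟨T, hT, hTc⟩ := ((finite_singular_fibres hW).infinite_compl).exists_subset_card_eq (n + 1)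
  set S : Finset ℚ := T.image (Int.cast : ℤ → ℚ)
  have hS : ∀ t ∈ S, (fibreW W t).Δ ≠ 0 := fun t ht => by
    obtain ⟨z, hz, rfl⟩ := Finset.mem_image.1 ht
    exact hT hz
  obtain ⟨z₀, hz₀⟩ : T.Nonempty := Finset.card_pos.1 (by omega)
  haveI := finiteIndex_two_ratFunc_rat (hS _ (Finset.mem_image_of_mem _ hz₀))
  haveI : ∀ t : S, Module.Finite ℤ (fibreW W t.1).toAffine.Point := fun t =>
    haveI := fg_fibreW (hS t.1 t.2)
    Module.Finite.iff_addGroup_fg.mpr inferInstance
  haveI : AddGroup.FG (∀ t : S, (fibreW W t.1).toAffine.Point) :=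
    Module.Finite.iff_addGroup_fg.mp Module.Finite.pi
  refine fg_of_map (AddMonoidHom.pi fun t : S => specW W (hS t.1 t.2)) (h := naiveHgt)
    naiveHgt_nonneg hC fun P hP hP0 => le_trans ?_
      (le_naiveHgt_of_specW_eq_zero W S hS hP0 fun t ht => congrFun hP ⟨t, ht⟩)
  have hlog : 0 < Real.log (degBase ℚ) := Real.log_pos one_lt_degBase
  rw [Finset.card_image_of_injective _ Int.cast_injective, hTc]
  rw [div_lt_iff₀ hlog] at hn
  push_cast
  nlinarith

/-- A common denominator turns an equation over `F(T)` into one over `F[T]`. -/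
theorem exists_integral_model {F : Type*} [Field F] (E : WeierstrassCurve (RatFunc F))
    [E.IsElliptic] :
    ∃ (W : WeierstrassCurve F[X]) (C : VariableChange (RatFunc F)), W.Δ ≠ 0 ∧ C • E = genW W := by
  set D := E.a₁.denom * E.a₂.denom * E.a₃.denom * E.a₄.denom * E.a₆.denom with hDdef
  have hD : D ≠ 0 := by simp [hDdef, RatFunc.denom_ne_zero]
  set d := algebraMap F[X] (RatFunc F) D
  have hd : d ≠ 0 := RatFunc.algebraMap_ne_zero hD
  have key : ∀ (a : RatFunc F) (n : ℕ), a.denom ∣ D →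
      ∃ p : F[X], algebraMap F[X] (RatFunc F) p = d ^ (n + 1) * a := fun a n ⟨c, hc⟩ => by
    refine ⟨D ^ n * c * a.num, ?_⟩
    conv_rhs => rw [← RatFunc.num_div_denom a, pow_succ]
    rw [map_mul, map_mul, map_pow]
    simp only [d, hc, map_mul]
    field_simp [RatFunc.algebraMap_ne_zero (K := F) a.denom_ne_zero]
  obtain ⟨p₁, h₁⟩ := key E.a₁ 0 ⟨E.a₂.denom * E.a₃.denom * E.a₄.denom * E.a₆.denom, by rw [hDdef]; ring⟩
  obtain ⟨p₂, h₂⟩ := key E.a₂ 1 ⟨E.a₁.denom * E.a₃.denom * E.a₄.denom * E.a₆.denom, by rw [hDdef]; ring⟩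
  obtain ⟨p₃, h₃⟩ := key E.a₃ 2 ⟨E.a₁.denom * E.a₂.denom * E.a₄.denom * E.a₆.denom, by rw [hDdef]; ring⟩
  obtain ⟨p₄, h₄⟩ := key E.a₄ 3 ⟨E.a₁.denom * E.a₂.denom * E.a₃.denom * E.a₆.denom, by rw [hDdef]; ring⟩
  obtain ⟨p₆, h₆⟩ := key E.a₆ 5 ⟨E.a₁.denom * E.a₂.denom * E.a₃.denom * E.a₄.denom, by rw [hDdef]; ring⟩
  set C : VariableChange (RatFunc F) := ⟨(Units.mk0 d hd)⁻¹, 0, 0, 0⟩
  have hCE : C • E = genW ⟨p₁, p₂, p₃, p₄, p₆⟩ := by
    ext <;> simp [C, variableChange_a₁, variableChange_a₂, variableChange_a₃, variableChange_a₄,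
      variableChange_a₆, WeierstrassCurve.map, h₁, h₂, h₃, h₄, h₆]
  refine ⟨_, C, fun e => ?_, hCE⟩
  have h := (C • E).isUnit_Δ.ne_zero
  rw [hCE, WeierstrassCurve.map_Δ, e, map_zero] at h
  exact h rfl

/-- **The theorem of Mordell, Weil, Lang and Néron over `ℚ(T)`.** -/
theorem fg_point_ratFunc_all (E : WeierstrassCurve (RatFunc ℚ)) [E.IsElliptic] :
    AddGroup.FG E.toAffine.Point := by
  obtain ⟨W, C, hW, hC⟩ := exists_integral_model E
  haveI := genW_isElliptic hW
  haveI := fg_point_genW hW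
  exact AddGroup.fg_of_surjective (f := (FA.Frob.vcEquiv C hC).toAddMonoidHom)
    (FA.Frob.vcEquiv C hC).surjective

end FA.NeronSpecialisation
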