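import Fermat.Agent.NeronSpecialisation.Place
import Fermat.Agent.FunctionFieldMW.CubicCurve
import Fermat.Agent.FunctionFieldRank.Descent
import Fermat.Agent.Frob.Reduction

/-!
# Specialisation of `y² = (x - e₀) (x - e₁) (x - e₂)` at `T = t`

Reduction at the place `T = t` is a homomorphism to the points of the fibre; the square classes of
the fibre are those of the leading coefficients at `t` of the classes over `F(T)`.
-/

set_option autoImplicit false
set_option linter.unusedSectionVars false
set_option linter.style.haveILetI false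

noncomputable section

open WeierstrassCurve Polynomial
open FA.FunctionFieldMW FA.FunctionFieldRank
open scoped Classical

namespace FA.NeronSpecialisation

/-- `y² = (x - r₀) (x - r₁) (x - r₂)`. -/
abbrev rootCurve {L : Type*} [Field L] (r : Fin 3 → L) : WeierstrassCurve L :=
  cubicCurve (-(r 0 + r 1 + r 2)) (r 0 * r 1 + r 0 * r 2 + r 1 * r 2) (-(r 0 * r 1 * r 2))

/-- Its roots. -/
def rootData {L : Type*} [Field L] {r : Fin 3 → L} (hr : Function.Injective r) :
    RootData (-(r 0 + r 1 + r 2)) (r 0 * r 1 + r 0 * r 2 + r 1 * r 2) (-(r 0 * r 1 * r 2)) :=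
  ⟨r, rfl, rfl, rfl, hr⟩

/-- `x - rᵢ`, with the product of the differences to the other roots in its place at `x = rᵢ`. -/
def classElt {L : Type*} [Field L] (r : Fin 3 → L) (x : L) (i : Fin 3) : L :=
  if x = r i then 3 * r i ^ 2 + 2 * -(r 0 + r 1 + r 2) * r i + (r 0 * r 1 + r 0 * r 2 + r 1 * r 2)
  else x - r i

theorem classElt_ne_zero {L : Type*} [Field L] {r : Fin 3 → L} (hr : Function.Injective r) (x : L)
    (i : Fin 3) : classElt r x i ≠ 0 := by
  unfold classElt
  split_ifs with h
  · exact (rootData hr).shift_ne i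
  · exact sub_ne_zero.2 h

theorem classes_eq_sqFun {L : Type*} [Field L] {r : Fin 3 → L} (hr : Function.Injective r)
    (h2 : (2 : L) ≠ 0) {x y : L} (h : (rootCurve r).toAffine.Nonsingular x y) (i : Fin 3) :
    (rootData hr).classes h2 (.some x y h) i = sqFun L (classElt r x i) := by
  rw [(rootData hr).classes_some h2 h, classElt]
  split_ifs with h' h'' h'' <;> first | rfl | exact absurd h' h'' | exact absurd h'' h'

/-- Of three elements of a group of exponent two summing to zero each is the sum of the others. -/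
theorem cancel_three {A : Type*} [AddCommGroup A] (h2 : ∀ u : A, u + u = 0) {u v w : A}
    (h : u + v + w = 0) : v + w = u ∧ u + w = v ∧ u + v = w := by
  have hn : ∀ a : A, -a = a := fun a => neg_eq_of_add_eq_zero_left (h2 a)
  refine ⟨?_, ?_, ?_⟩
  · rw [← hn u, eq_comm, neg_eq_iff_add_eq_zero, ← add_assoc]; exact h
  · rw [← hn v, eq_comm, neg_eq_iff_add_eq_zero, ← add_assoc, add_comm v u]; exact h
  · rw [← hn w, eq_comm, neg_eq_iff_add_eq_zero, add_comm]; exact h

/-- Three classes of the factors of `y²` cancel. -/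
theorem sum_sqFun_eq_zero {L : Type*} [Field L] {r : Fin 3 → L} {x y : L}
    (h : (rootCurve r).toAffine.Equation x y) (hx : ∀ i, x ≠ r i) :
    sqFun L (x - r 0) + sqFun L (x - r 1) + sqFun L (x - r 2) = 0 := by
  have e : y ^ 2 = (x - r 0) * (x - r 1) * (x - r 2) := by
    rw [cubicCurve_equation] at h; linear_combination h
  have h0 := fun i => sub_ne_zero.2 (hx i)
  rw [← isParity_sqFun (h0 0) (h0 1), ← isParity_sqFun (mul_ne_zero (h0 0) (h0 1)) (h0 2), ← e, sq]
  have hy : y ≠ 0 := fun hy => by
    rw [hy, zero_pow two_ne_zero, eq_comm] at e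
    exact mul_ne_zero (mul_ne_zero (h0 0) (h0 1)) (h0 2) e
  rw [isParity_sqFun hy hy, sqClass_add_self]

variable {F : Type*} [Field F] (e : Fin 3 → F[X]) (t : F)

/-- The roots as rational functions. -/
def genRoots : Fin 3 → RatFunc F := fun i => algebraMap F[X] (RatFunc F) (e i)

/-- Their values at `t`. -/
def specRoots : Fin 3 → F := fun i => (e i).eval t

theorem genRoots_injective {e : Fin 3 → F[X]} (he : Function.Injective e) :
    Function.Injective (genRoots e) := fun _ _ h => he (RatFunc.algebraMap_injective F h)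

theorem injective_of_specRoots {e : Fin 3 → F[X]} {t : F}
    (ht : Function.Injective (specRoots e t)) : Function.Injective e :=
  fun i j h => ht (by simp [specRoots, h])

theorem intCoeff_rootCurve : FA.Local.IntCoeff (valueRing t).valuation
    (rootCurve (genRoots e)).toAffine := by
  have h : ∀ p : F[X], (valueRing t).valuation (algebraMap F[X] (RatFunc F) p) ≤ 1 := fun p =>
    ((valueRing t).valuation_le_one_iff _).2 (algebraMap_mem_valueRing t p)
  constructor <;> simp only [genRoots, ← map_add, ← map_mul,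
    ← map_neg, map_zero]
  all_goals first
    | exact h _
    | exact zero_le_one

theorem intModel_map_valueAt :
    (FA.Frob.intModel (valueRing t) (rootCurve (genRoots e)).toAffine
      (intCoeff_rootCurve e t)).map (valueAt t) = rootCurve (specRoots e t) := by
  have h : ∀ (z : valueRing t) (p : F[X]), (z : RatFunc F) = algebraMap F[X] (RatFunc F) p →
      valueAt t z = p.eval t := fun z p e => by
    rw [show z = ⟨_, algebraMap_mem_valueRing t p⟩ from Subtype.ext e, valueAt_algebraMap]
  ext <;> simp only [WeierstrassCurve.map, FA.Frob.intModel]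
  · rw [h _ 0 (by simp)]; simp
  · rw [h _ (-(e 0 + e 1 + e 2)) (by simp [genRoots])]; simp [specRoots]
  · rw [h _ 0 (by simp)]; simp
  · rw [h _ (e 0 * e 1 + e 0 * e 2 + e 1 * e 2) (by simp [genRoots])]; simp [specRoots]
  · rw [h _ (-(e 0 * e 1 * e 2)) (by simp [genRoots])]; simp [specRoots]

theorem redCurve_map_residueValue :
    (FA.Frob.redCurve (valueRing t) (rootCurve (genRoots e)).toAffine
      (intCoeff_rootCurve e t)).map (residueValue t) = rootCurve (specRoots e t) := by
  rw [← intModel_map_valueAt, FA.Frob.redCurve, WeierstrassCurve.map_map]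
  rfl

theorem valuation_Δ (h2 : (2 : F) ≠ 0) (ht : Function.Injective (specRoots e t)) :
    (valueRing t).valuation (rootCurve (genRoots e)).Δ = 1 := by
  set M := FA.Frob.intModel (valueRing t) (rootCurve (genRoots e)).toAffine (intCoeff_rootCurve e t)
  have hu : IsUnit M.Δ := by
    refine (isUnit_map_iff (valueAt t) _).1 ?_
    rw [← WeierstrassCurve.map_Δ, intModel_map_valueAt]
    exact ((rootData ht).isElliptic h2).1
  have h := (FA.Frob.valuation_eq_one_iff (valueRing t) M.Δ).2 hu
  rwa [show (M.Δ : RatFunc F) = (rootCurve (genRoots e)).Δ from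
    ((M.map_Δ (valueRing t).subtype).symm.trans
      (congrArg WeierstrassCurve.Δ (FA.Frob.intModel_map _ _ _)))] at h

variable {e t}

/-- **The specialisation homomorphism at `T = t`.** -/
def spec (h2 : (2 : F) ≠ 0) (ht : Function.Injective (specRoots e t)) :
    (rootCurve (genRoots e)).toAffine.Point →+ (rootCurve (specRoots e t)).toAffine.Point :=
  haveI := FA.Frob.redCurve_isElliptic (intCoeff_rootCurve e t) (valuation_Δ e t h2 ht)
  (pointMap (residueValue t) (redCurve_map_residueValue e t)).comp
    (FA.Frob.redHom (intCoeff_rootCurve e t) (valuation_Δ e t h2 ht))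

theorem spec_some_of_mem (h2 : (2 : F) ≠ 0) (ht : Function.Injective (specRoots e t))
    {x y : RatFunc F} (h : (rootCurve (genRoots e)).toAffine.Nonsingular x y)
    (hx : x ∈ valueRing t) :
    ∃ (hy : y ∈ valueRing t) (h' : (rootCurve (specRoots e t)).toAffine.Nonsingular
      (valueAt t ⟨x, hx⟩) (valueAt t ⟨y, hy⟩)),
      spec h2 ht (.some x y h) = .some _ _ h' := by
  haveI := FA.Frob.redCurve_isElliptic (intCoeff_rootCurve e t) (valuation_Δ e t h2 ht)
  have hy := FA.Frob.y_mem (intCoeff_rootCurve e t) h.1 hx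
  obtain ⟨h₁, e₁⟩ := FA.Frob.redFun_of_mem (intCoeff_rootCurve e t) h hx
  have hs : spec h2 ht (.some x y h) =
      pointMap (residueValue t) (redCurve_map_residueValue e t) (.some _ _ h₁) := by
    rw [spec, AddMonoidHom.comp_apply, FA.Frob.redHom_apply, e₁]
  rw [pointMap_some] at hs
  simp only [FA.Frob.resOf, dif_pos hx, dif_pos hy] at hs
  exact ⟨hy, _, hs⟩

theorem spec_some_of_notMem (h2 : (2 : F) ≠ 0) (ht : Function.Injective (specRoots e t))
    {x y : RatFunc F} (h : (rootCurve (genRoots e)).toAffine.Nonsingular x y)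
    (hx : x ∉ valueRing t) : spec h2 ht (.some x y h) = 0 := by
  haveI := FA.Frob.redCurve_isElliptic (intCoeff_rootCurve e t) (valuation_Δ e t h2 ht)
  rw [spec, AddMonoidHom.comp_apply, FA.Frob.redHom_apply]
  rw [show FA.Frob.redFun (intCoeff_rootCurve e t) (.some x y h) = 0 from dif_neg hx, map_zero]

theorem valueAt_genRoots (i : Fin 3) :
    valueAt t ⟨_, algebraMap_mem_valueRing t (e i)⟩ = specRoots e t i := valueAt_algebraMap t _

/-- Where `x - rᵢ` has a non-zero value, that value is its leading coefficient. -/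
theorem leadAt_sub_root {x : RatFunc F} (hx : x ∈ valueRing t) (i : Fin 3)
    (h : valueAt t ⟨x, hx⟩ ≠ specRoots e t i) :
    leadAt t (x - genRoots e i) = valueAt t ⟨x, hx⟩ - specRoots e t i := by
  have h' : valueAt t (⟨x, hx⟩ - ⟨_, algebraMap_mem_valueRing t (e i)⟩) ≠ 0 := by
    rw [map_sub, valueAt_genRoots]; exact sub_ne_zero.2 h
  exact (leadAt_eq_valueAt t h').trans (by rw [map_sub, valueAt_genRoots])

theorem isParity_leadClass : IsParity fun z : RatFunc F => sqFun F (leadAt t z) :=
  isParity_comp_leadAt t isParity_sqFun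

/-- The leading classes of the factors of `y²` cancel. -/
theorem sum_leadClass_eq_zero {x y : RatFunc F}
    (h : (rootCurve (genRoots e)).toAffine.Equation x y) (hx : ∀ i, x ≠ genRoots e i) :
    sqFun F (leadAt t (x - genRoots e 0)) + sqFun F (leadAt t (x - genRoots e 1)) +
      sqFun F (leadAt t (x - genRoots e 2)) = 0 := by
  have h0 := fun i => sub_ne_zero.2 (hx i)
  have e' : y ^ 2 = (x - genRoots e 0) * (x - genRoots e 1) * (x - genRoots e 2) := by
    rw [cubicCurve_equation] at h; linear_combination h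
  have hy : y ≠ 0 := fun hy => by
    rw [hy, zero_pow two_ne_zero, eq_comm] at e'
    exact mul_ne_zero (mul_ne_zero (h0 0) (h0 1)) (h0 2) e'
  have hχ := isParity_leadClass (t := t)
  have a₁ := hχ (h0 0) (h0 1)
  have a₂ := hχ (mul_ne_zero (h0 0) (h0 1)) (h0 2)
  have a₃ := hχ hy hy
  simp only at a₁ a₂ a₃
  rw [← a₁, ← a₂, ← e', sq, a₃, sqClass_add_self]

theorem leadClass_classElt_of_notMem {x y : RatFunc F}
    (h : (rootCurve (genRoots e)).toAffine.Equation x y) (hx : x ∉ valueRing t) (i : Fin 3) :
    sqFun F (leadAt t (classElt (genRoots e) x i)) = 0 := by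
  have hne : ∀ i, x ≠ genRoots e i := fun i he => hx (he ▸ algebraMap_mem_valueRing t _)
  have hx0 : x ≠ 0 := fun he => hx (he ▸ (valueRing t).zero_mem)
  have hinv : x⁻¹ ∈ valueRing t := ((valueRing t).mem_or_inv_mem x).resolve_left hx
  have hv : valueAt t ⟨x⁻¹, hinv⟩ = 0 := by
    by_contra hne'
    obtain ⟨u, hu⟩ := (isUnit_map_iff (valueAt t) ⟨x⁻¹, hinv⟩).1 (isUnit_iff_ne_zero.2 hne')
    refine hx ?_
    have e1 : (u : valueRing t).1 * ((u⁻¹ : (valueRing t)ˣ) : valueRing t).1 = 1 :=
      congrArg Subtype.val u.mul_inv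
    rw [hu] at e1
    rw [← inv_inv x, inv_eq_of_mul_eq_one_right e1]
    exact ((u⁻¹ : (valueRing t)ˣ) : valueRing t).2
  have hlead : ∀ i, leadAt t (x - genRoots e i) = leadAt t x := fun i => by
    rw [show x - genRoots e i = x * (1 - genRoots e i * x⁻¹) by field_simp, leadAt_mul]
    set w : valueRing t := 1 - ⟨_, algebraMap_mem_valueRing t (e i)⟩ * ⟨x⁻¹, hinv⟩
    have hw : valueAt t w = 1 := by simp only [w, map_sub, map_mul, map_one, hv, mul_zero, sub_zero]
    rw [show 1 - genRoots e i * x⁻¹ = (w : RatFunc F) from rfl,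
      leadAt_eq_valueAt t (hw ▸ one_ne_zero), hw, mul_one]
  have hs := sum_leadClass_eq_zero (t := t) h hne
  rw [hlead, hlead, hlead, sqClass_add_self] at hs
  rw [classElt, if_neg (hne i), hlead]
  exact (zero_add _).symm.trans hs

/-- **The classes of the fibre are those of the leading coefficients.** -/
theorem classes_spec (h2 : (2 : F) ≠ 0) (ht : Function.Injective (specRoots e t))
    {x y : RatFunc F} (h : (rootCurve (genRoots e)).toAffine.Nonsingular x y) (i : Fin 3) :
    (rootData ht).classes h2 (spec h2 ht (.some x y h)) i =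
      sqFun F (leadAt t (classElt (genRoots e) x i)) := by
  by_cases hx : x ∈ valueRing t
  swap
  · rw [spec_some_of_notMem h2 ht h hx, map_zero, leadClass_classElt_of_notMem h.1 hx]; rfl
  obtain ⟨hy, h', hs⟩ := spec_some_of_mem h2 ht h hx
  rw [hs, classes_eq_sqFun ht h2 h']
  set X₀ := valueAt t ⟨x, hx⟩
  by_cases hi : X₀ = specRoots e t i
  swap
  · have hne : x ≠ genRoots e i := by
      rintro rfl; exact hi (valueAt_algebraMap t _)
    rw [classElt, classElt, if_neg hi, if_neg hne, leadAt_sub_root hx i hi]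
  rw [classElt, if_pos hi]
  by_cases hxi : x = genRoots e i
  · rw [classElt, if_pos hxi]
    set G : Fin 3 → valueRing t := fun j => ⟨_, algebraMap_mem_valueRing t (e j)⟩
    set w : valueRing t := 3 * G i ^ 2 + 2 * -(G 0 + G 1 + G 2) * G i +
      (G 0 * G 1 + G 0 * G 2 + G 1 * G 2)
    have hw : valueAt t w = 3 * specRoots e t i ^ 2 +
        2 * -(specRoots e t 0 + specRoots e t 1 + specRoots e t 2) * specRoots e t i +
        (specRoots e t 0 * specRoots e t 1 + specRoots e t 0 * specRoots e t 2 +
          specRoots e t 1 * specRoots e t 2) := by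
      simp only [w, G, map_add, map_mul, map_neg, map_pow, map_ofNat, valueAt_genRoots]
    rw [show 3 * genRoots e i ^ 2 +
        2 * -(genRoots e 0 + genRoots e 1 + genRoots e 2) * genRoots e i +
        (genRoots e 0 * genRoots e 1 + genRoots e 0 * genRoots e 2 +
          genRoots e 1 * genRoots e 2) = (w : RatFunc F) from rfl,
      leadAt_eq_valueAt t (hw ▸ (rootData ht).shift_ne i), hw]
  have hj : ∀ j, j ≠ i → X₀ ≠ specRoots e t j := fun j hj e' => hj (ht (e'.symm.trans hi))
  have hne : ∀ j, x ≠ genRoots e j := fun j e' => by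
    rcases eq_or_ne j i with rfl | hji
    · exact hxi e'
    · subst e'; exact hj j hji (valueAt_algebraMap t _)
  have hs' := sum_leadClass_eq_zero (t := t) h.1 hne
  have hd : ∀ j, j ≠ i → specRoots e t i - specRoots e t j ≠ 0 := fun j hji =>
    sub_ne_zero.2 fun e' => hji (ht e'.symm)
  rw [classElt, if_neg (hne i)]
  fin_cases i <;> simp only [Fin.zero_eta, Fin.mk_one, Fin.reduceFinMk] at hi hxi hj hd ⊢
  · rw [leadAt_sub_root hx 1 (hj 1 (by decide)), leadAt_sub_root hx 2 (hj 2 (by decide)),
      show valueAt t ⟨x, hx⟩ = specRoots e t 0 from hi] at hs'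
    refine Eq.trans ?_ (cancel_three sqClass_add_self hs').1
    refine Eq.trans ?_ (isParity_sqFun (hd 1 (by decide)) (hd 2 (by decide)))
    congr 1; ring
  · rw [leadAt_sub_root hx 0 (hj 0 (by decide)), leadAt_sub_root hx 2 (hj 2 (by decide)),
      show valueAt t ⟨x, hx⟩ = specRoots e t 1 from hi] at hs'
    refine Eq.trans ?_ (cancel_three sqClass_add_self hs').2.1
    refine Eq.trans ?_ (isParity_sqFun (hd 0 (by decide)) (hd 2 (by decide)))
    congr 1; ring
  · rw [leadAt_sub_root hx 0 (hj 0 (by decide)), leadAt_sub_root hx 1 (hj 1 (by decide)),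
      show valueAt t ⟨x, hx⟩ = specRoots e t 2 from hi] at hs'
    refine Eq.trans ?_ (cancel_three sqClass_add_self hs').2.2
    refine Eq.trans ?_ (isParity_sqFun (hd 0 (by decide)) (hd 1 (by decide)))
    congr 1; ring

end FA.NeronSpecialisation
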