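import Fermat.Agent.NeronSpecialisation.Halving

/-!
# Néron's specialisation theorem for every equation over `ℚ[T]`

A family of homomorphisms out of a finitely generated group is injective outside a set of density
zero when there each class modulo two, each torsion point and each point of order two is preserved.
-/

set_option autoImplicit false
set_option linter.unusedSectionVars false
set_option linter.style.haveILetI false

noncomputable section

open WeierstrassCurve Polynomial
open Fermat.Agent.Hilbertian (DensityZero densityZero_of_finite densityZero_biUnion)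
open scoped Classical

namespace FA.NeronSpecialisation

/-- **The criterion for injectivity outside a set of density zero.** -/
theorem densityZero_not_injective {G : Type*} [AddCommGroup G] [AddGroup.FG G] {good : ℤ → Prop}
    {H : ℤ → Type*} [∀ t, AddCommGroup (H t)] (f : ∀ t, good t → G →+ H t)
    (hdouble : ∀ P : G, (∀ R, 2 • R ≠ P) → DensityZero {t | ∃ ht, ∃ R, 2 • R = f t ht P})
    (htors : ∀ P : G, IsOfFinAddOrder P → P ≠ 0 → DensityZero {t | ∃ ht, f t ht P = 0})
    (hnew : DensityZero {t | ∃ ht, ∃ R : H t, 2 • R = 0 ∧ ∀ τ, 2 • τ = 0 → f t ht τ ≠ R}) :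
    DensityZero {t | ∃ ht, ¬Function.Injective (f t ht)} := by
  set N := (nsmulAddMonoidHom (α := G) 2).range
  haveI : AddGroup.FG (G ⧸ N) := AddGroup.fg_of_surjective (QuotientAddGroup.mk'_surjective N)
  haveI : Finite (G ⧸ N) := AddCommGroup.finite_of_fg_isAddTorsion _ fun v =>
    isOfFinAddOrder_iff_nsmul_eq_zero.2 ⟨2, two_pos, by
      obtain ⟨x, rfl⟩ := QuotientAddGroup.mk'_surjective N v
      rw [← map_nsmul]
      exact (QuotientAddGroup.eq_zero_iff _).2 ⟨x, rfl⟩⟩
  letI := Fintype.ofFinite (G ⧸ N)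
  haveI : Module.Finite ℤ G := Module.Finite.iff_addGroup_fg.mpr inferInstance
  haveI : Module.Finite ℤ (AddSubgroup.toIntSubmodule (AddCommGroup.torsion G)) :=
    Module.Finite.iff_fg.2 (IsNoetherian.noetherian _)
  haveI : AddGroup.FG (AddCommGroup.torsion G) := Module.Finite.iff_addGroup_fg.mp
    (inferInstanceAs (Module.Finite ℤ (AddSubgroup.toIntSubmodule (AddCommGroup.torsion G))))
  haveI : Finite (AddCommGroup.torsion G) := AddCommGroup.finite_of_fg_isAddTorsion _ fun x =>
    AddSubmonoid.isOfFinAddOrder_coe.1 ((AddCommGroup.mem_torsion _).1 x.2)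
  letI := Fintype.ofFinite (AddCommGroup.torsion G)
  let B₁ : G ⧸ N → Set ℤ := fun q => if q = 0 then ∅ else {t | ∃ ht, ∃ R, 2 • R = f t ht q.out}
  let B₂ : AddCommGroup.torsion G → Set ℤ := fun x =>
    if x = 0 then ∅ else {t | ∃ ht, f t ht (x : G) = 0}
  have h₁ : ∀ q, DensityZero (B₁ q) := fun q => by
    simp only [B₁]
    split_ifs with hq
    · exact densityZero_of_finite Set.finite_empty
    refine hdouble _ fun R hR => hq ?_
    rw [← Quotient.out_eq q]
    exact (QuotientAddGroup.eq_zero_iff _).2 ⟨R, hR⟩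
  have h₂ : ∀ x, DensityZero (B₂ x) := fun x => by
    simp only [B₂]
    split_ifs with hx
    · exact densityZero_of_finite Set.finite_empty
    exact htors _ ((AddCommGroup.mem_torsion _).1 x.2) fun e => hx (Subtype.ext e)
  refine (((densityZero_biUnion Finset.univ fun q _ => h₁ q).union
    (densityZero_biUnion Finset.univ fun x _ => h₂ x)).union hnew).mono ?_
  rintro t ⟨ht, hinj⟩
  by_contra hout
  simp only [Set.mem_union, Set.mem_iUnion, Finset.mem_univ, exists_const, not_or, not_exists] at hout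
  obtain ⟨⟨hout₁, hout₂⟩, hout₃⟩ := hout
  have hlift : ∀ R : H t, 2 • R = 0 → ∃ τ, 2 • τ = 0 ∧ f t ht τ = R := fun R hR => by
    by_contra h
    exact hout₃ ⟨ht, R, hR, fun τ hτ e => h ⟨τ, hτ, e⟩⟩
  have hdiv : ∀ x : (f t ht).ker, ∃ y : (f t ht).ker, 2 • y = x := fun x => by
    have hq : (QuotientAddGroup.mk (x : G) : G ⧸ N) = 0 := by
      by_contra hq
      obtain ⟨R, hR⟩ := QuotientAddGroup.eq.1
        (Quotient.out_eq (QuotientAddGroup.mk (x : G) : G ⧸ N)).symm
      refine hout₁ (QuotientAddGroup.mk (x : G)) ?_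
      simp only [B₁, if_neg hq]
      refine ⟨ht, f t ht R, ?_⟩
      rw [← map_nsmul, ← nsmulAddMonoidHom_apply, hR, map_add, map_neg,
        AddMonoidHom.mem_ker.1 x.2, neg_zero, zero_add]
    obtain ⟨g, hg⟩ := (QuotientAddGroup.eq_zero_iff _).1 hq
    rw [nsmulAddMonoidHom_apply] at hg
    obtain ⟨τ, hτ, hfτ⟩ := hlift (f t ht g) (by
      rw [← map_nsmul, hg]; exact AddMonoidHom.mem_ker.1 x.2)
    refine ⟨⟨g - τ, AddMonoidHom.mem_ker.2 (by rw [map_sub, hfτ, sub_self])⟩, Subtype.ext ?_⟩
    rw [AddSubgroup.coe_nsmul, nsmul_sub, hg, hτ, sub_zero]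
  haveI : Module.Finite ℤ (AddSubgroup.toIntSubmodule (f t ht).ker) :=
    Module.Finite.iff_fg.2 (IsNoetherian.noetherian _)
  haveI : AddGroup.FG (f t ht).ker := Module.Finite.iff_addGroup_fg.mp
    (inferInstanceAs (Module.Finite ℤ (AddSubgroup.toIntSubmodule (f t ht).ker)))
  refine hinj ((injective_iff_map_eq_zero _).2 fun x hx => by_contra fun hx0 => ?_)
  have htor : x ∈ AddCommGroup.torsion G := (AddCommGroup.mem_torsion _).2
    (AddSubmonoid.isOfFinAddOrder_coe.2 (isOfFinAddOrder_of_divisible hdiv ⟨x, hx⟩))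
  refine hout₂ ⟨x, htor⟩ ?_
  simp only [B₂, if_neg (fun he : (⟨x, htor⟩ : AddCommGroup.torsion G) = 0 =>
    hx0 (congrArg Subtype.val he))]
  exact ⟨ht, hx⟩

section Rat

attribute [local instance 2000] ratDecEq

/-- **Néron's specialisation theorem.** -/
theorem densityZero_specW_not_injective {W : WeierstrassCurve ℚ[X]} (hW : W.Δ ≠ 0) :
    DensityZero {t : ℤ | ∃ ht : (fibreW W (t : ℚ)).Δ ≠ 0, ¬Function.Injective (specW W ht)} := by
  haveI := genW_isElliptic hW
  haveI := fg_point_genW hW
  refine densityZero_not_injective (fun t ht => specW W (t := (t : ℚ)) ht)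
    (fun P hP => densityZero_specW_double hW hP) (fun P _ hP => ?_) (densityZero_new_two_torsion hW)
  rcases P with _ | ⟨x, y, h⟩
  · exact absurd rfl hP
  refine (densityZero_of_finite ((finite_setOfPred_isRoot x.denom_ne_zero).preimage
    (f := (Int.cast : ℤ → ℚ)) Int.cast_injective.injOn)).mono ?_
  rintro t ⟨ht, hst⟩
  by_contra hne
  obtain ⟨hy, h', hs⟩ := specW_some_of_mem ht h (show x ∈ valueRing (t : ℚ) from hne)
  rw [hst] at hs
  exact Affine.Point.some_ne_zero _ hs.symm

end Rat

end FA.NeronSpecialisation
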