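import Fermat.Agent.NeronSpecialisation.GeneralMW

/-!
# Halving and two-torsion in the fibres

For almost every integer `t` each rational root of a polynomial specialised at `T = t` is the
value of one of its roots in `ℚ(T)`. Applied to `Φ₂ - X Ψ₂²` and to `Ψ₂²` this shows that outside a
set of density zero no new halves and no new points of order two appear.
-/

set_option autoImplicit false
set_option linter.unusedSectionVars false
set_option linter.style.haveILetI false

noncomputable section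

open WeierstrassCurve Polynomial
open FA.FunctionFieldRank (pointMap pointMap_some)
open Fermat.Agent.Hilbertian (DensityZero densityZero_of_finite densityZero_biUnion
  exists_root_ratFunc specialise)
open scoped Classical

namespace FA.NeronSpecialisation

attribute [local instance 2000] ratDecEq

/-- Values of polynomials in a rational function defined at `t`. -/
theorem valueAt_eval {F : Type*} [Field F] {t : F} {x : RatFunc F} (hx : x ∈ valueRing t)
    (p : F[X][X]) :
    ∃ h : (p.map (algebraMap F[X] (RatFunc F))).eval x ∈ valueRing t,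
      valueAt t ⟨_, h⟩ = (p.map (evalRingHom t)).eval (valueAt t ⟨x, hx⟩) := by
  let a : F[X] →+* valueRing t :=
    (algebraMap F[X] (RatFunc F)).codRestrict (valueRing t).toSubring (algebraMap_mem_valueRing t)
  have e : ((p.eval₂ a ⟨x, hx⟩ : valueRing t) : RatFunc F) =
      (p.map (algebraMap F[X] (RatFunc F))).eval x := by
    rw [eval_map, ← ValuationSubring.subtype_apply, hom_eval₂]
    rfl
  have hm : (p.map (algebraMap F[X] (RatFunc F))).eval x ∈ valueRing t := by
    rw [← e]; exact SetLike.coe_mem _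
  refine ⟨hm, ?_⟩
  rw [show (⟨_, hm⟩ : valueRing t) = p.eval₂ a ⟨x, hx⟩ from Subtype.ext e.symm,
    hom_eval₂, eval_map, show (valueAt t).comp a = evalRingHom t from
      RingHom.ext fun q => valueAt_algebraMap t q]

/-- **In almost every fibre the rational roots are values of roots in `ℚ(T)`.** -/
theorem densityZero_new_root {H : ℚ[X][X]} (hH : H ≠ 0) :
    DensityZero {n : ℤ | ∃ r, (H.map (evalRingHom (n : ℚ))).IsRoot r ∧
      ∀ y ∈ (H.map (algebraMap ℚ[X] (RatFunc ℚ))).roots, ∀ hy : y ∈ valueRing (n : ℚ),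
        valueAt (n : ℚ) ⟨y, hy⟩ ≠ r} := by
  set A := algebraMap ℚ[X] (RatFunc ℚ)
  set P := H.map A
  have hP : P ≠ 0 := (Polynomial.map_ne_zero_iff (RatFunc.algebraMap_injective ℚ)).2 hH
  obtain ⟨Q, hPQ, -, hQr⟩ := exists_prod_multiset_X_sub_C_mul P
  have hQ : Q ≠ 0 := fun e => hP (by rw [← hPQ, e, mul_zero])
  set Q' := IsLocalization.integerNormalization (nonZeroDivisors ℚ[X]) Q
  obtain ⟨b, hbM, hb⟩ := IsLocalization.integerNormalization_spec (nonZeroDivisors ℚ[X]) Q
  have hb0 : b ≠ 0 := nonZeroDivisors.ne_zero hbM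
  set lin : RatFunc ℚ → ℚ[X][X] := fun y => C y.denom * X - C y.num
  have hlin : ∀ y, (lin y).map A = C (A y.denom) * (X - C y) := fun y => by
    simp only [lin, Polynomial.map_sub, Polynomial.map_mul, map_C, map_X, mul_sub]
    rw [← map_mul C (A y.denom) y]
    congr 2
    nth_rw 3 [← RatFunc.num_div_denom y]
    rw [mul_div_cancel₀ _ (RatFunc.algebraMap_ne_zero y.denom_ne_zero)]
  set δ := (P.roots.map RatFunc.denom).prod * b
  have hδ : δ ≠ 0 := mul_ne_zero (Multiset.prod_ne_zero fun h => by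
    obtain ⟨y, -, hy⟩ := Multiset.mem_map.1 h
    exact y.denom_ne_zero hy) hb0
  have key : C δ * H = (P.roots.map lin).prod * Q' := by
    refine Polynomial.map_injective A (RatFunc.algebraMap_injective ℚ) ?_
    rw [Polynomial.map_mul, Polynomial.map_mul, map_C, Polynomial.map_multiset_prod,
      Multiset.map_map, show Polynomial.map A Q' = b • Q from hb]
    simp only [Function.comp_def, hlin, Multiset.prod_map_mul]
    rw [Algebra.smul_def, Polynomial.algebraMap_apply]
    show C (A δ) * P = _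
    conv_lhs => rw [← hPQ]
    simp only [δ, map_mul, map_multiset_prod, Multiset.map_map, Function.comp_def]
    ring
  have hno : ∀ y : RatFunc ℚ, aeval y Q' ≠ 0 := fun y hy => by
    rw [aeval_def, ← eval_map, show Polynomial.map A Q' = b • Q from hb, eval_smul,
      smul_eq_zero, or_iff_right hb0] at hy
    have : y ∈ Q.roots := (mem_roots hQ).2 hy
    rw [hQr] at this
    exact Multiset.notMem_zero y this
  have h₁ : DensityZero {n : ℤ | ∃ r, (specialise Q' (n : ℚ)).IsRoot r} := by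
    by_contra h
    obtain ⟨y, hy⟩ := exists_root_ratFunc h
    exact hno y hy
  have h₂ : {n : ℤ | δ.IsRoot (n : ℚ)}.Finite :=
    (finite_setOfPred_isRoot hδ).preimage Int.cast_injective.injOn
  refine (h₁.union (densityZero_of_finite h₂)).mono ?_
  rintro n ⟨r, hr, hnew⟩
  by_cases hδn : δ.IsRoot (n : ℚ)
  · exact Or.inr hδn
  refine Or.inl ⟨r, ?_⟩
  have e := congrArg (fun p => (p.map (evalRingHom (n : ℚ))).eval r) key
  simp only [Polynomial.map_mul, eval_mul, Polynomial.map_multiset_prod, Multiset.map_map,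
    eval_multiset_prod, Function.comp_def, map_C, eval_C] at e
  rw [show (H.map (evalRingHom (n : ℚ))).eval r = 0 from hr, mul_zero, eq_comm, mul_eq_zero] at e
  refine e.resolve_left fun h0 => ?_
  obtain ⟨y, hy, hy0⟩ := Multiset.mem_map.1 (Multiset.prod_eq_zero_iff.1 h0)
  simp only [lin, Polynomial.map_sub, Polynomial.map_mul, map_C, map_X, eval_sub, eval_mul, eval_C,
    eval_X, coe_evalRingHom] at hy0
  have hd : y.denom.eval (n : ℚ) ≠ 0 := fun h => hδn (by
    simp only [IsRoot, δ, eval_mul, eval_multiset_prod, Multiset.map_map, mul_eq_zero]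
    exact Or.inl (Multiset.prod_eq_zero_iff.2 (Multiset.mem_map.2 ⟨y, hy, h⟩)))
  refine hnew y hy hd ?_
  rw [valueAt_apply]
  field_simp
  linear_combination -hy0

variable {F : Type*} [Field F] {W : WeierstrassCurve F}

theorem Ψ₂Sq_eval {x y : F} (h : W.toAffine.Equation x y) :
    W.Ψ₂Sq.eval x = (2 * y + W.a₁ * x + W.a₃) ^ 2 := by
  rw [Affine.equation_iff] at h
  simp only [WeierstrassCurve.Ψ₂Sq, WeierstrassCurve.b₂, WeierstrassCurve.b₄, WeierstrassCurve.b₆,
    eval_add, eval_mul, eval_C, eval_pow, eval_X]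
  linear_combination -4 * h

theorem exists_point_of_Ψ₂Sq_eq_sq [W.IsElliptic] (h2 : (2 : F) ≠ 0) {x s : F}
    (hs : W.Ψ₂Sq.eval x = s ^ 2) :
    W.toAffine.Nonsingular x ((s - W.a₁ * x - W.a₃) / 2) := by
  refine Affine.equation_iff_nonsingular.mp ((Affine.equation_iff _ _).2 ?_)
  simp only [WeierstrassCurve.Ψ₂Sq, WeierstrassCurve.b₂, WeierstrassCurve.b₄, WeierstrassCurve.b₆,
    eval_add, eval_mul, eval_C, eval_pow, eval_X] at hs
  field_simp
  linear_combination -hs

variable {W : WeierstrassCurve ℚ[X]}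

/-- The polynomial of the abscissae of the halves of a point with abscissa `X`. -/
def halvingPoly (W : WeierstrassCurve ℚ[X]) (X' : RatFunc ℚ) : ℚ[X][X] :=
  C X'.denom * W.Φ 2 - C X'.num * W.ΨSq 2

theorem halvingPoly_ne_zero (W : WeierstrassCurve ℚ[X]) (X' : RatFunc ℚ) :
    halvingPoly W X' ≠ 0 := fun h => by
  have e := congrArg (fun p : ℚ[X][X] => p.coeff ((2 : ℤ).natAbs ^ 2)) h
  simp only [halvingPoly, coeff_sub, coeff_C_mul, coeff_zero, W.coeff_Φ, mul_one] at e
  rw [coeff_eq_zero_of_natDegree_lt (lt_of_le_of_lt (W.natDegree_ΨSq_le 2) (by decide)),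
    mul_zero, sub_zero] at e
  exact X'.denom_ne_zero e

/-- **No new halves in almost every fibre.** -/
theorem densityZero_specW_double (hW : W.Δ ≠ 0) {P : (genW W).toAffine.Point}
    (hP : ∀ R, 2 • R ≠ P) :
    DensityZero {t : ℤ | ∃ ht : (fibreW W (t : ℚ)).Δ ≠ 0, ∃ R, 2 • R = specW W ht P} := by
  haveI := genW_isElliptic hW
  set A := algebraMap ℚ[X] (RatFunc ℚ)
  rcases P with _ | ⟨X₀, Y₀, h₀⟩
  · exact absurd (nsmul_zero 2) (hP 0)
  set H := halvingPoly W X₀
  set roots := (H.map A).roots.toFinset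
  -- the roots in `ℚ(T)` give no half
  have hns : ∀ y ∈ roots, ¬IsSquare ((genW W).Ψ₂Sq.eval y) := fun y hy ⟨s, hs⟩ => by
    have hy' : (H.map A).eval y = 0 :=
      (mem_roots ((Polynomial.map_ne_zero_iff (RatFunc.algebraMap_injective ℚ)).2
        (halvingPoly_ne_zero W X₀))).1 (Multiset.mem_toFinset.1 hy)
    simp only [H, halvingPoly, Polynomial.map_sub, Polynomial.map_mul, map_C,
      ← WeierstrassCurve.map_Φ, ← WeierstrassCurve.map_ΨSq, eval_sub, eval_mul, eval_C,
      sub_eq_zero] at hy'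
    have h := exists_point_of_Ψ₂Sq_eq_sq (two_ne_zero_ratFunc (two_ne_zero (α := ℚ)))
      (W := genW W) (x := y) (s := s) (by rw [hs, sq])
    have hΨ : ((genW W).ΨSq ((2 : ℕ) : ℤ)).eval y ≠ 0 := fun e0 => by
      refine FA.EC.numDen_ne_zero (genW W) 2 y ?_
      rw [Nat.cast_ofNat] at e0
      have hΦ : ((genW W).Φ 2).eval y = 0 :=
        (mul_eq_zero.1 (hy'.trans (by rw [e0, mul_zero]))).resolve_left
          (RatFunc.algebraMap_ne_zero X₀.denom_ne_zero)
      funext i; fin_cases i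
      · exact hΦ
      · exact e0
    obtain ⟨Y', h', e⟩ := FA.EC.zsmul_eq_some h ((2 : ℕ) : ℤ) hΨ
    rw [natCast_zsmul] at e
    rw [Nat.cast_ofNat] at hΨ
    have hx : ((genW W).Φ ((2 : ℕ) : ℤ)).eval y / ((genW W).ΨSq ((2 : ℕ) : ℤ)).eval y = X₀ := by
      rw [Nat.cast_ofNat, div_eq_iff hΨ]
      conv_rhs => rw [← RatFunc.num_div_denom X₀]
      rw [div_mul_eq_mul_div, eq_div_iff (RatFunc.algebraMap_ne_zero X₀.denom_ne_zero)]
      linear_combination hy'
    rcases Affine.Y_eq_of_X_eq h'.1 h₀.1 hx with e' | e'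
    · exact hP _ (e.trans (by rw [Affine.Point.some.injEq]; exact ⟨hx, e'⟩))
    · refine hP (-(Affine.Point.some _ _ h)) ?_
      rw [neg_nsmul, e, Affine.Point.neg_some, Affine.Point.some.injEq]
      refine ⟨hx, ?_⟩
      rw [e', hx, Affine.negY_negY]
  have hsq : ∀ y ∈ roots, DensityZero {n : ℤ | IsSquare
      (((genW W).Ψ₂Sq.eval y).num.eval (n : ℚ) * ((genW W).Ψ₂Sq.eval y).denom.eval (n : ℚ))} :=
    fun y hy => by_contra fun hd => hns y hy (isSquare_of_square_valueAt hd)
  have hfin : {n : ℤ | X₀.denom.IsRoot (n : ℚ)}.Finite :=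
    (finite_setOfPred_isRoot X₀.denom_ne_zero).preimage Int.cast_injective.injOn
  refine (((densityZero_new_root (halvingPoly_ne_zero W X₀)).union
    (densityZero_biUnion roots hsq)).union (densityZero_of_finite hfin)).mono ?_
  rintro n ⟨ht, R, hR⟩
  by_cases hd : X₀.denom.IsRoot (n : ℚ)
  · exact Or.inr hd
  refine Or.inl ?_
  haveI := fibreW_isElliptic ht
  obtain ⟨hY₀, h₁, hs⟩ := specW_some_of_mem ht h₀ (show X₀ ∈ valueRing (n : ℚ) from hd)
  rw [hs] at hR
  rcases R with _ | ⟨x, y, h⟩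
  · rw [← Affine.Point.zero_def, nsmul_zero] at hR
    exact absurd hR.symm (Affine.Point.some_ne_zero _)
  have hne : ((2 : ℕ) : ℤ) • Affine.Point.some x y h ≠ 0 := by
    rw [natCast_zsmul, hR]; exact Affine.Point.some_ne_zero _
  have hphi := FA.EC.phi_eq_xc_mul h ((2 : ℕ) : ℤ) hne
  rw [natCast_zsmul, hR, FA.EC.xc_some, valueAt_apply, Nat.cast_ofNat] at hphi
  have hroot : (H.map (evalRingHom (n : ℚ))).IsRoot x := by
    simp only [H, halvingPoly, IsRoot, Polynomial.map_sub, Polynomial.map_mul, map_C,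
      ← WeierstrassCurve.map_Φ, ← WeierstrassCurve.map_ΨSq, eval_sub, eval_mul, eval_C,
      coe_evalRingHom, sub_eq_zero]
    rw [hphi]
    field_simp [show X₀.denom.eval (n : ℚ) ≠ 0 from hd]
  by_cases hold : ∃ z ∈ (H.map A).roots, ∃ hz : z ∈ valueRing (n : ℚ), valueAt (n : ℚ) ⟨z, hz⟩ = x
  swap
  · exact Or.inl ⟨x, hroot, fun z hz hzv e => hold ⟨z, hz, hzv, e⟩⟩
  obtain ⟨z, hz, hzv, hzx⟩ := hold
  refine Or.inr (Set.mem_iUnion₂.2 ⟨z, Multiset.mem_toFinset.2 hz, ?_⟩)
  obtain ⟨hmem, hval⟩ := valueAt_eval hzv W.Ψ₂Sq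
  rw [hzx, valueAt_apply] at hval
  simp only [← WeierstrassCurve.map_Ψ₂Sq] at hval hmem
  rw [Ψ₂Sq_eval h.1] at hval
  set s := 2 * y + (fibreW W (n : ℚ)).a₁ * x + (fibreW W (n : ℚ)).a₃
  refine ⟨s * ((genW W).Ψ₂Sq.eval z).denom.eval (n : ℚ), ?_⟩
  rw [div_eq_iff (show ((genW W).Ψ₂Sq.eval z).denom.eval (n : ℚ) ≠ 0 from hmem)] at hval
  rw [hval]
  ring

/-- **No new points of order two in almost every fibre.** -/
theorem densityZero_new_two_torsion (hW : W.Δ ≠ 0) :
    DensityZero {t : ℤ | ∃ ht : (fibreW W (t : ℚ)).Δ ≠ 0, ∃ R, 2 • R = 0 ∧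
      ∀ τ, 2 • τ = 0 → specW W ht τ ≠ R} := by
  haveI := genW_isElliptic hW
  have hne : W.ΨSq 2 ≠ 0 := W.ΨSq_ne_zero (by norm_num)
  refine (densityZero_new_root hne).mono ?_
  rintro n ⟨ht, R, hR, hnew⟩
  haveI := fibreW_isElliptic ht
  rcases R with _ | ⟨x, y, h⟩
  · exact absurd (map_zero _) (hnew 0 (nsmul_zero 2))
  refine ⟨x, ?_, fun z hz hzv e => ?_⟩
  · have h0 := (FA.EC.nsmul_eq_zero_iff h 2).1 hR
    rw [Nat.cast_ofNat] at h0
    rw [IsRoot, ← WeierstrassCurve.map_ΨSq]
    exact h0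
  have hz' : ((genW W).ΨSq 2).eval z = 0 := by
    rw [WeierstrassCurve.map_ΨSq]; exact isRoot_of_mem_roots hz
  have hn' := exists_point_of_Ψ₂Sq_eq_sq (two_ne_zero_ratFunc (two_ne_zero (α := ℚ)))
    (W := genW W) (x := z) (s := 0)
    (by rw [← WeierstrassCurve.ΨSq_two, hz']; simp)
  have hτ : 2 • (Affine.Point.some _ _ hn') = 0 := by
    rw [FA.EC.nsmul_eq_zero_iff hn' 2, Nat.cast_ofNat]; exact hz'
  obtain ⟨hy', h', hs⟩ := specW_some_of_mem ht hn' hzv
  refine hnew _ hτ ?_
  rw [hs]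
  rcases (Affine.Point.X_eq_iff (h₁ := h') (h₂ := h)).1 e with e' | e'
  · exact e'
  · rw [e', neg_eq_iff_add_eq_zero, ← two_nsmul]; exact hR

end FA.NeronSpecialisation
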