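import Fermat.Agent.FunctionFieldRank.Height
import Fermat.Agent.FunctionFieldRank.TwoClass
import Mathlib.FieldTheory.RatFunc.AsPolynomial
import Mathlib.RingTheory.Valuation.ValuationSubring
import Mathlib.Algebra.Polynomial.Taylor
import Mathlib.RingTheory.LocalRing.ResidueField.Basic

/-!
# The place `T = t` of `F(T)`

The rational functions defined at `t`, their values, the leading coefficient at `t`, and the
criterion for a rational function to be a square by its orders and one leading coefficient.
-/

set_option autoImplicit false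
set_option linter.unusedSectionVars false

noncomputable section

open Polynomial UniqueFactorizationMonoid
open FA.FunctionFieldRank
open scoped Classical

namespace FA.NeronSpecialisation

variable {F : Type*} [Field F] (t : F)

/-- The rational functions defined at `t`. -/
def valueRing : ValuationSubring (RatFunc F) where
  carrier := {x | x.denom.eval t ≠ 0}
  mul_mem' {x y} hx hy h := mul_ne_zero hx hy (by
    obtain ⟨c, hc⟩ := RatFunc.denom_mul_dvd x y
    rw [← eval_mul, hc, eval_mul, h, zero_mul])
  add_mem' {x y} hx hy h := mul_ne_zero hx hy (by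
    obtain ⟨c, hc⟩ := RatFunc.denom_add_dvd x y
    rw [← eval_mul, hc, eval_mul, h, zero_mul])
  one_mem' := by simp
  zero_mem' := by simp
  neg_mem' {x} hx h := hx (by
    obtain ⟨c, hc⟩ : (-x).denom ∣ x.denom := (RatFunc.denom_dvd x.denom_ne_zero).2
      ⟨-x.num, by rw [map_neg, neg_div, RatFunc.num_div_denom]⟩
    rw [hc, eval_mul, h, zero_mul])
  mem_or_inv_mem' x := by
    by_contra h
    push Not at h
    obtain ⟨h₁, h₂⟩ := h
    simp only [Set.mem_ofPred_eq, not_not] at h₁ h₂
    rcases eq_or_ne x 0 with rfl | hx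
    · simp at h₁
    obtain ⟨c, hc⟩ : x⁻¹.denom ∣ x.num := (RatFunc.denom_dvd (RatFunc.num_ne_zero hx)).2
      ⟨x.denom, by
        conv_lhs => rw [← RatFunc.num_div_denom x, inv_div]⟩
    have hn : x.num.eval t = 0 := by rw [hc, eval_mul, h₂, zero_mul]
    exact Polynomial.not_isUnit_X_sub_C t
      ((RatFunc.isCoprime_num_denom x).isUnit_of_dvd' (dvd_iff_isRoot.2 hn) (dvd_iff_isRoot.2 h₁))

theorem mem_valueRing {x : RatFunc F} : x ∈ valueRing t ↔ x.denom.eval t ≠ 0 := Iff.rfl

theorem algebraMap_mem_valueRing (p : F[X]) :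
    algebraMap F[X] (RatFunc F) p ∈ valueRing t := by
  simp [mem_valueRing, RatFunc.denom_algebraMap]

/-- The value at `t`. -/
def valueAt : valueRing t →+* F where
  toFun x := RatFunc.eval (RingHom.id F) t (x : RatFunc F)
  map_one' := by simp [RatFunc.eval]
  map_mul' x y := RatFunc.eval_mul (f := RingHom.id F) t x.2 y.2
  map_zero' := by simp [RatFunc.eval]
  map_add' x y := RatFunc.eval_add (f := RingHom.id F) t x.2 y.2

theorem valueAt_apply (x : valueRing t) :
    valueAt t x = (x : RatFunc F).num.eval t / (x : RatFunc F).denom.eval t := rfl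

theorem valueAt_algebraMap (p : F[X]) :
    valueAt t ⟨_, algebraMap_mem_valueRing t p⟩ = p.eval t := by
  simp [valueAt_apply, RatFunc.num_algebraMap, RatFunc.denom_algebraMap]

instance isLocalHom_valueAt : IsLocalHom (valueAt t) := ⟨fun x hx => by
  have h := isUnit_iff_ne_zero.1 hx
  rw [valueAt_apply, div_ne_zero_iff] at h
  have hx0 : (x : RatFunc F) ≠ 0 := fun e => h.1 (by simp [e])
  have hi : (x : RatFunc F)⁻¹ ∈ valueRing t := fun e => h.1 (by
    obtain ⟨c, hc⟩ : (x : RatFunc F)⁻¹.denom ∣ (x : RatFunc F).num :=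
      (RatFunc.denom_dvd (RatFunc.num_ne_zero hx0)).2 ⟨(x : RatFunc F).denom, by
        conv_lhs => rw [← RatFunc.num_div_denom (x : RatFunc F), inv_div]⟩
    rw [hc, eval_mul, e, zero_mul])
  exact IsUnit.of_mul_eq_one ⟨_, hi⟩ (Subtype.ext (mul_inv_cancel₀ hx0))⟩

/-- The residue field is the field of constants. -/
def residueValue : IsLocalRing.ResidueField (valueRing t) →+* F :=
  IsLocalRing.ResidueField.lift (valueAt t)

/-- The first non-zero Taylor coefficient. -/
def polyLead (p : F[X]) : F := (taylor t p).trailingCoeff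

theorem polyLead_mul (p q : F[X]) : polyLead t (p * q) = polyLead t p * polyLead t q := by
  rw [polyLead, taylor_mul, trailingCoeff_mul]; rfl

theorem polyLead_ne_zero {p : F[X]} (hp : p ≠ 0) : polyLead t p ≠ 0 := fun h =>
  hp (taylor_injective t (by rw [trailingCoeff_eq_zero.1 h, map_zero]))

theorem polyLead_of_eval {p : F[X]} (h : p.eval t ≠ 0) : polyLead t p = p.eval t := by
  rw [polyLead, trailingCoeff_eq_coeff_zero (by rwa [taylor_coeff_zero]), taylor_coeff_zero]

/-- The leading coefficient at `t`. -/
def leadAt (x : RatFunc F) : F := polyLead t x.num / polyLead t x.denom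

theorem leadAt_mul (x y : RatFunc F) :
    leadAt t (x * y) = leadAt t x * leadAt t y := by
  have h := congrArg (polyLead t) (RatFunc.num_denom_mul x y)
  simp only [polyLead_mul] at h
  rw [leadAt, leadAt, leadAt, div_mul_div_comm,
    div_eq_div_iff (polyLead_ne_zero t (RatFunc.denom_ne_zero _))
      (mul_ne_zero (polyLead_ne_zero t x.denom_ne_zero) (polyLead_ne_zero t y.denom_ne_zero))]
  linear_combination h

theorem leadAt_ne_zero {x : RatFunc F} (hx : x ≠ 0) : leadAt t x ≠ 0 :=
  div_ne_zero (polyLead_ne_zero t (RatFunc.num_ne_zero hx)) (polyLead_ne_zero t x.denom_ne_zero)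

theorem leadAt_eq_valueAt {x : valueRing t} (h : valueAt t x ≠ 0) :
    leadAt t (x : RatFunc F) = valueAt t x := by
  rw [valueAt_apply, div_ne_zero_iff] at h
  rw [leadAt, valueAt_apply, polyLead_of_eval t h.1, polyLead_of_eval t h.2]

theorem isParity_comp_leadAt {A : Type*} [AddCommGroup A] {χ : F → A} (hχ : IsParity χ) :
    IsParity fun x => χ (leadAt t x) := fun x y hx hy => by
  show χ _ = _
  rw [leadAt_mul t x y]
  exact hχ (leadAt_ne_zero t hx) (leadAt_ne_zero t hy)

theorem ne_zero_of_valueAt_ne_zero {x : valueRing t} (h : valueAt t x ≠ 0) :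
    (x : RatFunc F) ≠ 0 := fun e => h (by simp [valueAt_apply, e])

/-- A polynomial whose exponents are all even is a constant times a square. -/
theorem exists_sq_of_even {p : F[X]}
    (h : ∀ P : MonicPrime F, Even (expAt P.1 p)) : ∃ q : F[X], p = C p.leadingCoeff * q ^ 2 := by
  obtain ⟨M, hM⟩ : ∃ M, normalizedFactors p = 2 • M := by
    refine Multiset.exists_smul_of_dvd_count _ fun P hP => ?_
    exact even_iff_two_dvd.1 (h ⟨P, monic_of_mem_factors hP⟩)
  refine ⟨M.prod, ?_⟩
  conv_lhs => rw [← leadingCoeff_mul_prod_normalizedFactors p, hM, Multiset.prod_nsmul]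

/-- **A rational function with even orders and a square leading coefficient at `t` is a square.** -/
theorem isSquare_of_even {x : RatFunc F} (hx : x ≠ 0) (h : ∀ P, Even (ordAt P x))
    (hl : IsSquare (leadAt t x)) : IsSquare x := by
  set p := x.num * x.denom with hp
  have hp0 : p ≠ 0 := mul_ne_zero (RatFunc.num_ne_zero hx) x.denom_ne_zero
  obtain ⟨q, hq⟩ := exists_sq_of_even (p := p) fun P => by
    rw [hp, expAt_mul _ (RatFunc.num_ne_zero hx) x.denom_ne_zero]
    obtain ⟨k, hk⟩ := h P
    simp only [ordAt] at hk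
    exact ⟨(k + expAt P.1 x.denom).toNat, by omega⟩
  have hq0 : q ≠ 0 := fun e => hp0 (by rw [hq, e]; simp)
  obtain ⟨c, hc⟩ : IsSquare p.leadingCoeff := by
    obtain ⟨s, hs⟩ := hl
    refine ⟨s * polyLead t x.denom / polyLead t q, ?_⟩
    have e := congrArg (polyLead t) hq
    rw [hp, polyLead_mul, polyLead_mul, sq, polyLead_mul,
      polyLead_of_eval t (p := C _) (by rw [eval_C]; exact leadingCoeff_ne_zero.2 hp0), eval_C] at e
    rw [leadAt, div_eq_iff (polyLead_ne_zero t x.denom_ne_zero)] at hs
    field_simp [polyLead_ne_zero t hq0]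
    rw [hs] at e
    linear_combination -e
  refine ⟨algebraMap F[X] (RatFunc F) (C c * q) / algebraMap F[X] (RatFunc F) x.denom, ?_⟩
  have hd := RatFunc.algebraMap_ne_zero (K := F) x.denom_ne_zero
  conv_lhs => rw [← RatFunc.num_div_denom x]
  rw [div_mul_div_comm, div_eq_div_iff hd (mul_ne_zero hd hd), ← map_mul, ← map_mul, ← map_mul,
    ← map_mul]
  congr 1
  have e := hq
  rw [hp, hc, map_mul] at e
  linear_combination x.denom * e

end FA.NeronSpecialisation
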