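import Fermat.Agent.NeronSpecialisation.Curve

/-!
# Weak Mordell–Weil over `F(T)`

Away from the differences of the roots the classes of a point have even orders, and at one good
fibre their leading coefficients are classes of that fibre. So finitely many classes occur.
-/

set_option autoImplicit false
set_option linter.unusedSectionVars false
set_option linter.style.haveILetI false

noncomputable section

open WeierstrassCurve Polynomial
open FA.FunctionFieldMW FA.FunctionFieldRank
open scoped Classical

namespace FA.NeronSpecialisation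

variable {F : Type*} [Field F]

theorem eq_of_add_eq_zero_of_two {A : Type*} [AddCommGroup A] (h2 : ∀ w : A, w + w = 0) {u v : A}
    (h : u + v = 0) : u = v :=
  add_right_cancel (h.trans (h2 v).symm)

theorem eq_of_add_eq_zero_sqClass {L : Type*} [Field L]
    {u v : Additive (Lˣ ⧸ (powMonoidHom 2 : Lˣ →* Lˣ).range)} (h : u + v = 0) : u = v :=
  eq_of_add_eq_zero_of_two sqClass_add_self h

theorem ordAt_neg (P : MonicPrime F) {x : RatFunc F} (hx : x ≠ 0) : ordAt P (-x) = ordAt P x := by
  have h := ordAt_mul P (neg_ne_zero.2 hx) (neg_ne_zero.2 hx)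
  rw [neg_mul_neg, ordAt_mul P hx hx] at h
  omega

theorem min_le_ordAt_sub (P : MonicPrime F) {x y : RatFunc F} (hx : x ≠ 0) (hy : y ≠ 0)
    (hxy : x - y ≠ 0) : min (ordAt P x) (ordAt P y) ≤ ordAt P (x - y) := by
  have h := min_le_ordAt_add P hx (neg_ne_zero.2 hy) (by rwa [← sub_eq_add_neg])
  rwa [← sub_eq_add_neg, ordAt_neg P hy] at h

/-- The primes of the differences of the roots. -/
def badPrimes (e : Fin 3 → F[X]) : Finset (MonicPrime F) :=
  (Finset.univ : Finset (Fin 3 × Fin 3)).biUnion fun z => primeSupport (e z.1 - e z.2)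

theorem ordAt_diff {e : Fin 3 → F[X]} {P : MonicPrime F} (hP : P ∉ badPrimes e) (i j : Fin 3) :
    ordAt P (genRoots e i - genRoots e j) = 0 := by
  rw [genRoots, genRoots, ← map_sub, ordAt_algebraMap, Nat.cast_eq_zero]
  by_contra h
  exact hP (Finset.mem_biUnion.2 ⟨(i, j), Finset.mem_univ _, mem_primeSupport.2 h⟩)

/-- **Even orders away from the differences of the roots.** -/
theorem even_ordAt_classElt {e : Fin 3 → F[X]} (he : Function.Injective e) {P : MonicPrime F}
    (hP : P ∉ badPrimes e) {x y : RatFunc F}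
    (h : (rootCurve (genRoots e)).toAffine.Equation x y) (i : Fin 3) :
    Even (ordAt P (classElt (genRoots e) x i)) := by
  have hd : ∀ {j k : Fin 3}, j ≠ k → genRoots e j - genRoots e k ≠ 0 := fun hjk =>
    (rootData (genRoots_injective he)).ne hjk
  by_cases hx : ∃ j, x = genRoots e j
  · obtain ⟨j, rfl⟩ := hx
    have key : ∀ a b c : Fin 3, a ≠ b → a ≠ c →
        Even (ordAt P ((genRoots e a - genRoots e b) * (genRoots e a - genRoots e c))) :=
      fun a b c hab hac => by
        rw [ordAt_mul P (hd hab) (hd hac), ordAt_diff hP, ordAt_diff hP]; exact ⟨0, rfl⟩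
    unfold classElt
    split_ifs with hji
    · fin_cases i
      · convert key 0 1 2 (by decide) (by decide) using 2; simp only [Fin.zero_eta]; ring
      · convert key 1 0 2 (by decide) (by decide) using 2; simp only [Fin.mk_one]; ring
      · convert key 2 0 1 (by decide) (by decide) using 2; simp only [Fin.reduceFinMk]; ring
    · rw [ordAt_diff hP]; exact ⟨0, rfl⟩
  push Not at hx
  have h0 := fun j => sub_ne_zero.2 (hx j)
  have e' : y * y = (x - genRoots e 0) * (x - genRoots e 1) * (x - genRoots e 2) := by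
    rw [cubicCurve_equation] at h; linear_combination h
  have hy : y ≠ 0 := fun hy => by
    rw [hy, mul_zero, eq_comm] at e'
    exact mul_ne_zero (mul_ne_zero (h0 0) (h0 1)) (h0 2) e'
  have hsum := congrArg (ordAt P) e'
  rw [ordAt_mul P hy hy, ordAt_mul P (mul_ne_zero (h0 0) (h0 1)) (h0 2),
    ordAt_mul P (h0 0) (h0 1)] at hsum
  set u := fun j => ordAt P (x - genRoots e j) with hu
  -- two orders are never both positive, and each is at least the smaller of another and zero
  have hb : ∀ j k, j ≠ k → min (u j) (u k) ≤ 0 ∧ min (u k) 0 ≤ u j := fun j k hjk => by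
    have ne : x - genRoots e j - (x - genRoots e k) ≠ 0 := by
      rw [sub_sub_sub_cancel_left]; exact hd (Ne.symm hjk)
    have h1 := min_le_ordAt_sub P (h0 j) (h0 k) ne
    rw [sub_sub_sub_cancel_left, ordAt_diff hP] at h1
    have e2 : x - genRoots e k - (genRoots e j - genRoots e k) = x - genRoots e j := by ring
    have h2 := min_le_ordAt_sub P (h0 k) (hd hjk) (by rw [e2]; exact h0 j)
    rw [e2, ordAt_diff hP] at h2
    exact ⟨h1, h2⟩
  rw [classElt, if_neg (hx i)]
  change Even (u i)
  have a := hb 0 1 (by decide)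
  have b := hb 1 0 (by decide)
  have c := hb 0 2 (by decide)
  have d := hb 2 0 (by decide)
  have f := hb 1 2 (by decide)
  have g := hb 2 1 (by decide)
  change ordAt P y + ordAt P y = u 0 + u 1 + u 2 at hsum
  rw [Int.even_iff]
  fin_cases i <;> simp only [Fin.zero_eta, Fin.mk_one, Fin.reduceFinMk] <;> omega

variable {e : Fin 3 → F[X]} {t : F}

theorem two_ne_zero_ratFunc (h2 : (2 : F) ≠ 0) : (2 : RatFunc F) ≠ 0 := fun h =>
  h2 ((algebraMap F (RatFunc F)).injective (by rw [map_ofNat, map_zero]; exact h))

/-- Finitely many classes at a good fibre. -/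
theorem finite_range_classes_spec (h2 : (2 : F) ≠ 0) (ht : Function.Injective (specRoots e t))
    [AddGroup.FG (rootCurve (specRoots e t)).toAffine.Point] :
    (Set.range ((rootData ht).classes h2)).Finite := by
  set G := (rootCurve (specRoots e t)).toAffine.Point
  set N := (nsmulAddMonoidHom (α := G) 2).range
  haveI : AddGroup.FG (G ⧸ N) := AddGroup.fg_of_surjective (QuotientAddGroup.mk'_surjective N)
  haveI : Finite (G ⧸ N) := AddCommGroup.finite_of_fg_isAddTorsion _ fun v =>
    isOfFinAddOrder_iff_nsmul_eq_zero.2 ⟨2, two_pos, by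
      obtain ⟨x, rfl⟩ := QuotientAddGroup.mk'_surjective N v
      rw [← map_nsmul]
      exact (QuotientAddGroup.eq_zero_iff _).2 ⟨x, rfl⟩⟩
  refine (Set.finite_range fun q : G ⧸ N => (rootData ht).classes h2 q.out).subset ?_
  rintro _ ⟨P, rfl⟩
  obtain ⟨R, hR⟩ := QuotientAddGroup.eq.1 (Quotient.out_eq (QuotientAddGroup.mk P : G ⧸ N))
  refine ⟨QuotientAddGroup.mk P, ?_⟩
  have e' := congrArg ((rootData ht).classes h2) hR
  rw [nsmulAddMonoidHom_apply, map_nsmul, map_add, map_neg, two_nsmul] at e'
  funext i
  have e'' := congrFun e' i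
  exact neg_add_eq_zero.1 (e''.symm.trans (sqClass_add_self _))

/-- **Finitely many classes over `F(T)`.** -/
theorem finite_range_classes (h2 : (2 : F) ≠ 0) (ht : Function.Injective (specRoots e t))
    [AddGroup.FG (rootCurve (specRoots e t)).toAffine.Point] :
    (Set.range ((rootData (genRoots_injective (injective_of_specRoots ht))).classes
      (two_ne_zero_ratFunc h2))).Finite := by
  set he := injective_of_specRoots ht
  set K := RatFunc F
  -- the elements that can represent the classes
  set Z : Fin 3 → Set K := fun i => {z | z ≠ 0 ∧ (∀ P, P ∉ badPrimes e → Even (ordAt P z)) ∧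
    sqFun F (leadAt t z) ∈ (fun v => v i) '' Set.range ((rootData ht).classes h2)} with hZ
  let χ : K → (badPrimes e → ZMod 2) × Additive (Fˣ ⧸ (powMonoidHom 2 : Fˣ →* Fˣ).range) :=
    fun z => (fun P => (ordAt P.1 z : ZMod 2), sqFun F (leadAt t z))
  have hsame : ∀ i, ∀ z ∈ Z i, ∀ z' ∈ Z i, χ z = χ z' → sqFun K z = sqFun K z' := by
    rintro i z ⟨hz, hze, -⟩ z' ⟨hz', hze', -⟩ hχ
    have hmul : IsSquare (z * z') := by
      refine isSquare_of_even t (mul_ne_zero hz hz') (fun P => ?_) ?_
      · rw [ordAt_mul P hz hz']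
        by_cases hP : P ∈ badPrimes e
        · have hp := congrFun (congrArg Prod.fst hχ) ⟨P, hP⟩
          rw [even_iff_two_dvd, ← Nat.cast_two, ← ZMod.intCast_zmod_eq_zero_iff_dvd]
          push_cast
          rw [show (ordAt P z : ZMod 2) = (ordAt P z' : ZMod 2) from hp, CharTwo.add_self_eq_zero]
        · exact (hze P hP).add (hze' P hP)
      · refine isSquare_of_sqFun (leadAt_ne_zero t (mul_ne_zero hz hz')) ?_
        rw [leadAt_mul, isParity_sqFun (leadAt_ne_zero t hz) (leadAt_ne_zero t hz'),
          show sqFun F (leadAt t z) = sqFun F (leadAt t z') from congrArg Prod.snd hχ,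
          sqClass_add_self]
    obtain ⟨w, hw⟩ := hmul
    have hw0 : w ≠ 0 := fun h => mul_ne_zero hz hz' (by rw [hw, h, mul_zero])
    have hsum : sqFun K z + sqFun K z' = 0 := by
      rw [← isParity_sqFun hz hz', hw, isParity_sqFun hw0 hw0, sqClass_add_self]
    exact eq_of_add_eq_zero_sqClass hsum
  have hfin : ∀ i, (sqFun K '' Z i).Finite := fun i => by
    have hχ : (χ '' Z i).Finite := by
      refine ((Set.finite_univ (α := badPrimes e → ZMod 2)).prod
        ((finite_range_classes_spec h2 ht).image (fun v => v i))).subset ?_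
      rintro _ ⟨z, hz, rfl⟩
      exact ⟨Set.mem_univ _, hz.2.2⟩
    refine (hχ.image fun v => sqFun K (Function.invFunOn χ (Z i) v)).subset ?_
    rintro _ ⟨z, hz, rfl⟩
    refine ⟨χ z, ⟨z, hz, rfl⟩, ?_⟩
    have hex : ∃ a ∈ Z i, χ a = χ z := ⟨z, hz, rfl⟩
    exact hsame i _ (Function.invFunOn_mem hex) z hz (Function.invFunOn_eq hex)
  refine ((Set.Finite.pi fun i => hfin i).insert 0).subset ?_
  rintro _ ⟨P, rfl⟩
  rcases P with _ | ⟨x, y, h⟩
  · exact Or.inl (map_zero _)
  · refine Or.inr fun i _ => ⟨classElt (genRoots e) x i, ⟨classElt_ne_zero (genRoots_injective he) x i,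
      fun P hP => even_ordAt_classElt he hP h.1 i, ⟨_, ⟨_, rfl⟩, classes_spec h2 ht h i⟩⟩, ?_⟩
    exact (classes_eq_sqFun (genRoots_injective he) (two_ne_zero_ratFunc h2) h i).symm

/-- **Weak Mordell–Weil.** -/
theorem finiteIndex_two (h2 : (2 : F) ≠ 0) (ht : Function.Injective (specRoots e t))
    [AddGroup.FG (rootCurve (specRoots e t)).toAffine.Point] :
    (nsmulAddMonoidHom (α := (rootCurve (genRoots e)).toAffine.Point) 2).range.FiniteIndex := by
  set c := (rootData (genRoots_injective (injective_of_specRoots ht))).classes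
    (two_ne_zero_ratFunc h2)
  haveI : Finite (Set.range c) := (finite_range_classes h2 ht).to_subtype
  haveI : Finite (_ ⧸ (nsmulAddMonoidHom (α := (rootCurve (genRoots e)).toAffine.Point) 2).range) :=
    Finite.of_surjective (fun v : Set.range c => QuotientAddGroup.mk v.2.choose) fun q => by
      obtain ⟨P, rfl⟩ := QuotientAddGroup.mk_surjective q
      refine ⟨⟨c P, P, rfl⟩, QuotientAddGroup.eq.2 ?_⟩
      set Q := (⟨P, rfl⟩ : ∃ y, c y = c P).choose
      have hQ : c Q = c P := (⟨P, rfl⟩ : ∃ y, c y = c P).choose_spec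
      obtain ⟨R, hR⟩ := (rootData (genRoots_injective (injective_of_specRoots ht))).exists_half_of_classes
        (two_ne_zero_ratFunc h2) (P := -Q + P) (by rw [map_add, map_neg]; exact neg_add_eq_zero.2 hQ)
      exact ⟨R, hR⟩
  exact AddSubgroup.finiteIndex_of_finite_quotient

end FA.NeronSpecialisation
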